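import Fermat.Agent.SelP.Loc

/-!
# Growth of the cotangent space at `p`
-/

set_option autoImplicit false
set_option maxHeartbeats 1000000
set_option linter.unusedSectionVars false
set_option linter.style.haveILetI false

noncomputable section

namespace Fermat.Agent.SelP

open IsLocalRing Matrix Fermat.Agent.DefRing Fermat.Agent.GalRep Fermat.Agent.TWGal
  Fermat.Agent.TWPatch Fermat.Agent.TW56 GaloisRep Fermat.Agent.RT Fermat.Agent.AtP
  Fermat.Agent.FlatLoc Fermat.Agent.RT.Sel IsDiscreteValuationRing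

local notation "Qbar" => AlgebraicClosure ℚ

/-- surjections induce surjections on cotangent spaces of points -/
theorem length_cot_surj {O R₁ R₀ : Type*} [CommRing O] [CommRing R₁] [CommRing R₀] [Algebra O R₁]
    [Algebra O R₀] (φ : R₁ →ₐ[O] R₀) (hφ : Function.Surjective φ) (π : R₀ →ₐ[O] O) :
    Module.length O (RingHom.ker π).Cotangent ≤
      Module.length O (RingHom.ker (π.comp φ)).Cotangent := by
  have hle : RingHom.ker (π.comp φ) ≤ (RingHom.ker π).comap φ := by
    intro x hx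
    rw [Ideal.mem_comap, RingHom.mem_ker]
    exact hx
  let g := Ideal.mapCotangent (RingHom.ker (π.comp φ)) (RingHom.ker π) φ hle
  have hg : Function.Surjective g := by
    intro c
    obtain ⟨⟨y, hy⟩, rfl⟩ := Ideal.toCotangent_surjective _ c
    obtain ⟨x, rfl⟩ := hφ y
    refine ⟨Ideal.toCotangent _ ⟨x, hy⟩, ?_⟩
    rw [Ideal.mapCotangent_toCotangent]
  exact Module.length_le_of_surjective g hg

/-- one class killed by `1 - z ^ 2` -/
theorem length_cls_one {O R₁ : Type*} [CommRing O] [IsDomain O] [IsDiscreteValuationRing O]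
    [CommRing R₁] [Algebra O R₁] (π : R₁ →ₐ[O] O) {β z : R₁} (hβ : π β = 0)
    (hrel : (1 - z ^ 2) * β = 0) (hz : π z ^ 2 ≠ 1) :
    Module.length O (clsSpan π {β}) ≤ addVal O (π z ^ 2 - 1) := by
  set c : (RingHom.ker π).Cotangent := (RingHom.ker π).toCotangent ⟨β, hβ⟩ with hc
  have hspan : clsSpan π {β} = Submodule.span O {c} := by
    unfold clsSpan
    congr 1
    ext x
    constructor
    · rintro ⟨y, hy, rfl⟩
      have : y = ⟨β, hβ⟩ := Subtype.ext hy
      rw [this]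
      rfl
    · rintro rfl
      exact ⟨⟨β, hβ⟩, rfl, rfl⟩
  have hkill : (π z ^ 2 - 1) • c = 0 := by
    have h1 : (1 - z ^ 2) • c = 0 := by
      rw [hc, ← map_smul]
      have : (1 - z ^ 2) • (⟨β, hβ⟩ : RingHom.ker π) = 0 := Subtype.ext hrel
      rw [this, map_zero]
    rw [smul_cot, map_sub, map_one, map_pow] at h1
    rw [← neg_sub, neg_smul, h1, neg_zero]
  rw [hspan, ← length_quot_span (sub_ne_zero.mpr hz)]
  let f : O →ₗ[O] Submodule.span O {c} :=
    LinearMap.toSpanSingleton O _ ⟨c, Submodule.mem_span_singleton_self c⟩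
  have hf : Ideal.span {π z ^ 2 - 1} ≤ LinearMap.ker f := by
    rw [Ideal.span_singleton_le_iff_mem, LinearMap.mem_ker]
    exact Subtype.ext hkill
  have hs : Function.Surjective ((Ideal.span {π z ^ 2 - 1} : Submodule O O).liftQ f hf) := by
    rintro ⟨y, hy⟩
    obtain ⟨r, rfl⟩ := Submodule.mem_span_singleton.mp hy
    exact ⟨Submodule.Quotient.mk r, by rw [Submodule.liftQ_apply]; rfl⟩
  exact Module.length_le_of_surjective _ hs

/-- **T9, the `p`-step** -/
theorem selP : SelPSt := by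
  intro O _ _ _ _ _ _ p hp hp2 hpO ρbar S Smin hpS R₀ R₁ π₁ a ha ⟨A, hA, hfrob⟩
  -- the ordinary basis
  have h1 := R₁.isOfType
  obtain ⟨L, ⟨b', hL⟩, hD, hI⟩ := h1.1.2.1 A hA
  set T := repMat R₁.ρ b' with hTdef
  have hTc : MatCont T := repMat_matCont R₁.ρ b'
  have hrepr : ∀ v ∈ L, b'.repr v 1 = 0 := by
    intro v hv
    rw [hL] at hv
    obtain ⟨c, rfl⟩ := Submodule.mem_span_singleton.mp hv
    simp
  have hT : TriAt A T := by
    constructor
    · intro σ hσ
      rw [hTdef, repMat_apply, LinearMap.toMatrix_apply]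
      refine hrepr _ (hD σ hσ _ ?_)
      rw [hL]
      exact Submodule.mem_span_singleton_self _
    · intro σ hσ
      rw [hTdef, repMat_apply, LinearMap.toMatrix_apply]
      have := hrepr _ (hI σ hσ (b' 1))
      rw [map_sub, Finsupp.sub_apply, b'.repr_self, Finsupp.single_eq_same] at this
      exact sub_eq_zero.mp this
  have hρ : R₁.ρ.IsEquiv (matRep T hTc) := by
    refine ⟨{ toLinearEquiv := b'.equivFun, map_apply := fun σ x => ?_ }⟩
    change b'.equivFun (R₁.ρ.ρ σ x) = T σ *ᵥ b'.equivFun x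
    have := LinearMap.toMatrix_mulVec_repr b' b' (R₁.ρ.ρ σ) x
    ext i
    exact (congrFun this i).symm
  have hpR : (p : R₁.R) ∈ maximalIdeal R₁.R := h1.1.1.1
  have hdet : MDet p T := ((detCyc_iff R₁.ρ b').mp h1.1.1).2
  haveI : Finite (ResidueField R₁.R) := residueField_finite R₁.residue_surjective
  obtain ⟨τ, hτ⟩ := exists_isTau hp2 hA
  obtain ⟨φ, hφ⟩ := Frob.exists_isFrobeniusAt_Qbar A hp.out hA
  have hφD : φ ∈ A.decompositionSubgroup ℚ := (FrobDens.isFrobeniusAt_iff.mp hφ).1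
  set β := T τ 0 1 with hβdef
  set z := T φ 1 1 with hzdef
  have hrel : (1 - z ^ 2) * β = 0 := beta_rel hpR hTc hT hdet hA hτ hφD
  have hz : π₁ z = a := frob_corner hp2 (π₁ : R₁.R →+* O) hpR hT hdet hA (fun σ hσ => by
    have h2 := hfrob σ hσ
    rw [← trace_of_isEquiv hρ, trace_matRep, ← det_of_isEquiv hρ, det_matRep] at h2
    exact h2) hφ
  have hβ : π₁ β = 0 := by
    have h2 := congrArg π₁ hrel
    rw [map_mul, map_sub, map_one, map_pow, hz, map_zero] at h2
    exact (mul_eq_zero.mp h2).resolve_left (sub_ne_zero.mpr (Ne.symm ha))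
  have hβm : β ∈ maximalIdeal R₁.R := by
    rw [mem_maximalIdeal, mem_nonunits_iff]
    intro hu
    exact not_isUnit_zero (hβ ▸ hu.map π₁)
  -- the quotient
  set J : Ideal R₁.R := Ideal.span {β} with hJdef
  have hJ : J ≤ maximalIdeal R₁.R := (Ideal.span_singleton_le_iff_mem _).mpr hβm
  haveI : IsLocalRing (R₁.R ⧸ J) := quot_isLocalRing hJ
  haveI := quot_isAdicComplete (R := R₁.R) hJ
  have hmk : IsLocalHom (Ideal.Quotient.mkₐ O J : R₁.R →+* R₁.R ⧸ J) := mk_isLocalHom hJ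
  haveI hlocB : IsLocalHom (algebraMap O (R₁.R ⧸ J)) := by
    haveI := mk_isLocalHom hJ
    exact RingHom.isLocalHom_comp (Ideal.Quotient.mk J) (algebraMap O R₁.R)
  have hresB := quot_residue_surjective (O := O) hJ R₁.residue_surjective
  haveI : Finite (ResidueField (R₁.R ⧸ J)) := residueField_finite hresB
  have hDD := isDeformationCondition_DD (𝒪 := O) hp2 .ord S Smin
  have hB1 : DD O .ord p S Smin
      (R₁.ρ.baseChangeAlong (Ideal.Quotient.mkₐ O J : R₁.R →+* R₁.R ⧸ J) hmk) :=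
    cond_quot hDD inferInstance R₁.residue_surjective R₁.isOfType hJ hmk
  have hmodel := baseChange_model (Ideal.Quotient.mkₐ O J : R₁.R →+* R₁.R ⧸ J) hmk hρ
  have hpB : (p : R₁.R ⧸ J) ∈ maximalIdeal (R₁.R ⧸ J) := hB1.1.1.1
  set TB := mapT (Ideal.Quotient.mkₐ O J : R₁.R →+* R₁.R ⧸ J) T with hTB
  have hTBc : MatCont TB := hTc.map _ hmk
  have hTBt : TriAt A TB := hT.map _
  have hTBd : MDet p TB := MDet.map _ hdet
  have hTBτ : TB τ = 1 := by
    have h2 := tau_mat hpR hT hdet hτ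
    have hβJ : Ideal.Quotient.mk J β = 0 :=
      Ideal.Quotient.eq_zero_iff_mem.mpr (Ideal.mem_span_singleton_self β)
    ext i j
    rw [hTB, mapT_apply, h2]
    fin_cases i <;> fin_cases j
    · exact map_one (Ideal.Quotient.mk J)
    · exact hβJ
    · exact map_zero (Ideal.Quotient.mk J)
    · exact map_one (Ideal.Quotient.mk J)
  have hflat : (R₁.ρ.baseChangeAlong (Ideal.Quotient.mkₐ O J : R₁.R →+* R₁.R ⧸ J)
      hmk).IsFlatAt p := by
    obtain ⟨bB, hbB⟩ := exists_basis_of_equiv hmodel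
    refine (FlatHopf.isFlatAt_iff _ bB hp.out).mpr ⟨inferInstance, fun I hI hne => ?_⟩
    rw [hbB]
    haveI := hI
    have hIm : I ≤ maximalIdeal (R₁.R ⧸ J) := IsLocalRing.le_maximalIdeal hne
    haveI : IsLocalRing ((R₁.R ⧸ J) ⧸ I) := quot_isLocalRing hIm
    have hmkI : IsLocalHom (Ideal.Quotient.mk I) := mk_isLocalHom hIm
    refine flat_fin ?_ (hTBc.map _ hmkI) (hTBt.map _) (MDet.map _ hTBd) hA hτ ?_
    · rw [← map_natCast (Ideal.Quotient.mk I)]
      exact map_nonunit (Ideal.Quotient.mk I) _ hpB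
    · ext i j
      rw [mapT_apply, hTBτ, Matrix.one_apply, Matrix.one_apply]
      split_ifs
      · exact map_one _
      · exact map_zero _
  have hB0 : DD O .fl p S Smin
      (R₁.ρ.baseChangeAlong (Ideal.Quotient.mkₐ O J : R₁.R →+* R₁.R ⧸ J) hmk) :=
    ⟨⟨hB1.1.1, hflat, hB1.1.2.2⟩, hB1.2⟩
  -- the residual representation
  have b : Module.Basis (Fin 2) (ResidueField O) ρbar.V :=
    Module.finBasisOfFinrankEq _ _ ρbar.finrank_eq
  obtain ⟨T', hT', hTb', hρ'⟩ := exists_matRep ρbar b (ResidueField.map (algebraMap O R₁.R)) R₁.ρ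
    R₁.residual_isEquiv
  have hres := residual_quot (ρbar := ρbar) (R := R₁.R) inferInstance b hρ' hTb' hlocB
    (Ideal.Quotient.mkₐ O J) hmk
  obtain ⟨ψ, ⟨hψ, hψe⟩, -⟩ := R₀.universal (R₁.R ⧸ J) hresB _ hB0 hres
  obtain ⟨χ, -, hχu⟩ := R₁.universal (R₁.R ⧸ J) hresB _ hB1 hres
  obtain ⟨f, ⟨hf, hfe⟩, -⟩ := R₁.universal R₀.R R₀.residue_surjective R₀.ρ (fl_ord hp2 R₀ R₁)
    R₀.residual_isEquiv
  have e1 : ψ.comp f = χ := by
    apply hχu
    have hloc : IsLocalHom ((ψ.comp f : R₁.R →ₐ[O] R₁.R ⧸ J) : R₁.R →+* R₁.R ⧸ J) := by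
      haveI := hψ
      haveI := hf
      exact RingHom.isLocalHom_comp (ψ : R₀.R →+* R₁.R ⧸ J) (f : R₁.R →+* R₀.R)
    refine ⟨hloc, ?_⟩
    refine isEquiv_trans (isEquiv_symm (baseChange_comp (f : R₁.R →+* R₀.R) hf
      (ψ : R₀.R →+* R₁.R ⧸ J) hψ _ hloc rfl R₁.ρ)) ?_
    exact isEquiv_trans (isEquiv_baseChange _ hψ hfe) hψe
  have e2 : Ideal.Quotient.mkₐ O J = χ := by
    apply hχu
    exact ⟨hmk, ⟨GaloisRepAdic.Equiv.refl _⟩⟩
  have e3 : ψ.comp f = Ideal.Quotient.mkₐ O J := e1.trans e2.symm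
  have hψs : Function.Surjective ψ := by
    intro y
    obtain ⟨x, hx⟩ := Ideal.Quotient.mk_surjective y
    refine ⟨f x, ?_⟩
    have := DFunLike.congr_fun e3 x
    rw [AlgHom.comp_apply] at this
    rw [this]
    exact hx
  have hJz : ∀ x ∈ J, π₁ x = 0 := by
    intro x hx
    have : J ≤ RingHom.ker π₁ := (Ideal.span_singleton_le_iff_mem _).mpr hβ
    exact this hx
  let πB : (R₁.R ⧸ J) →ₐ[O] O := Ideal.Quotient.liftₐ J π₁ hJz
  have hπB : πB.comp (Ideal.Quotient.mkₐ O J) = π₁ := Ideal.Quotient.liftₐ_comp J π₁ hJz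
  refine ⟨πB.comp ψ, fun σ => ?_, ?_⟩
  · have h2 := trace_baseChange (f : R₁.R →+* R₀.R) hf R₁.ρ σ
    rw [← trace_of_isEquiv hfe] at h2
    rw [h2]
    have h3 := DFunLike.congr_fun e3 (R₁.ρ.trace σ)
    rw [AlgHom.comp_apply] at h3
    have h4 := DFunLike.congr_fun hπB (R₁.ρ.trace σ)
    rw [AlgHom.comp_apply, ← h3] at h4
    exact h4
  · have h2 := length_cot_le (Ideal.Quotient.mkₐ O J) (Ideal.Quotient.mkₐ_surjective O J) πB {β}
      (fun x hx => by
        rw [Set.mem_singleton_iff.mp hx]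
        exact Ideal.Quotient.eq_zero_iff_mem.mpr (Ideal.mem_span_singleton_self β))
      (fun x hx => Ideal.Quotient.eq_zero_iff_mem.mp hx)
    rw [hπB] at h2
    refine h2.trans (add_le_add (length_cot_surj ψ hψs πB) ?_)
    have h3 := length_cls_one π₁ hβ hrel (by rw [hz]; exact ha)
    rwa [hz] at h3

end Fermat.Agent.SelP
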