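import Fermat.Agent.SelP.Flat2

/-!
# Conjugation of the monodromy element
-/

set_option autoImplicit false
set_option linter.unusedSectionVars false
set_option linter.style.haveILetI false

noncomputable section

namespace Fermat.Agent.SelP

open Fermat.Agent.GalRep Fermat.Agent.Carayol Fermat.Agent.AtP Fermat.Agent.PicFlat
  Fermat.Agent.FlatLoc
open scoped Pointwise

local notation "Qbar" => AlgebraicClosure ℚ
local notation "GQ" => (AlgebraicClosure ℚ ≃ₐ[ℚ] AlgebraicClosure ℚ)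

namespace Ordi

variable {p : ℕ} [hp : Fact p.Prime] {A : ValuationSubring Qbar} {V : Type*} [AddCommGroup V]
  {ρ : GQ →* AddMonoid.End V} {L : AddSubgroup V} {n : ℕ} (h : Ordi p A ρ L n)

include h in
/-- **the Frobenius relation** -/
theorem conj_eq [Finite V] (hA : A.LiesOverPrime p) {τ φ : GQ} (hτ : IsTau p A τ)
    (hφ : φ ∈ A.decompositionSubgroup ℚ) (y : V) :
    ρ (φ * τ * φ⁻¹) y - y = (PadicInt.toZModPow n (cycP p φ)).val • (ρ τ y - y) := by
  have hτI : τ ∈ A.inertiaSubgroupIn ℚ := (mem_Iinf.mp hτ.mem).1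
  have hg : φ * τ * φ⁻¹ ∈ A.inertiaSubgroupIn ℚ := conj_mem_inertia hφ hτI
  set c := (PadicInt.toZModPow n (cycP p φ)).val with hc
  set l₁ : L := ⟨ρ (φ * τ * φ⁻¹) y - y, h.quot _ hg y⟩ with hl₁
  set l₂ : L := ⟨ρ τ y - y, h.quot _ hτI y⟩ with hl₂
  suffices hkey : l₁ = c • l₂ by
    have h0 := congrArg Subtype.val hkey
    rw [AddSubgroup.coe_nsmul] at h0
    exact h0
  by_contra hne
  obtain ⟨χ, hχ⟩ := exists_addChar (sub_ne_zero.mpr hne)
  obtain ⟨η, hη, hησ⟩ := h.exists_kummer χ y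
  have h1 : (φ * τ * φ⁻¹) η / η = χ l₁ := by
    rw [hησ _ hg, mul_div_assoc, div_self hη.1, mul_one]
  have h2 : τ η / η = χ l₂ := by
    rw [hησ _ hτI, mul_div_assoc, div_self hη.1, mul_one]
  have h3 := hτ.conj_ratio hA hφ hη
  rw [h1, h2, cycP_spec p φ (h.chi_pow χ l₂), ← hc, ← AddChar.map_nsmul_eq_pow] at h3
  apply hχ
  have h4 : l₁ = (l₁ - c • l₂) + c • l₂ := by abel
  have h5 : χ l₁ = χ (l₁ - c • l₂) * χ (c • l₂) := by
    rw [← AddChar.map_add_eq_mul, ← h4]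
  rw [h3] at h5
  exact (mul_right_cancel₀ (h.chi_ne χ (c • l₂)) (by rw [← h5, one_mul]))

end Ordi

end Fermat.Agent.SelP
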