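import Fermat.Agent.SelP.H90

/-!
# Extensions of unramified modules by multiplicative ones: unit classes are flat
-/

set_option autoImplicit false
set_option linter.unusedSectionVars false
set_option linter.style.haveILetI false

noncomputable section

namespace Fermat.Agent.SelP

open Fermat.Agent.GalRep Fermat.Agent.Carayol Fermat.Agent.AtP Fermat.Agent.PicFlat
  Fermat.Agent.FlatLoc
open scoped Pointwise

local notation "Qbar" => AlgebraicClosure ℚ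
local notation "GQ" => (AlgebraicClosure ℚ ≃ₐ[ℚ] AlgebraicClosure ℚ)

/-- characters separate points -/
theorem exists_addChar {L : Type*} [AddCommGroup L] [Finite L] {l : L} (hl : l ≠ 0) :
    ∃ χ : AddChar L Qbar, χ l ≠ 1 := by
  have hexp : Monoid.exponent (Multiplicative L) ≠ 0 := Monoid.exponent_ne_zero_of_finite
  haveI : NeZero ((Monoid.exponent (Multiplicative L) : ℕ) : Qbar) :=
    ⟨by exact_mod_cast hexp⟩
  haveI : HasEnoughRootsOfUnity Qbar (Monoid.exponent (Multiplicative L)) := inferInstance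
  obtain ⟨φ, hφ⟩ := CommGroup.exists_apply_ne_one_of_hasEnoughRootsOfUnity (Multiplicative L) Qbar
    (a := Multiplicative.ofAdd l) (by simpa using hl)
  refine ⟨{ toFun := fun l => ((φ (Multiplicative.ofAdd l) : Qbarˣ) : Qbar)
            map_zero_eq_one' := by rw [ofAdd_zero, map_one, Units.val_one]
            map_add_eq_mul' := fun a b => by rw [ofAdd_add, map_mul, Units.val_mul] }, ?_⟩
  intro h
  exact hφ (Units.ext h)

/-- the local situation -/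
structure Ordi (p : ℕ) [Fact p.Prime] (A : ValuationSubring Qbar) {V : Type*} [AddCommGroup V]
    (ρ : GQ →* AddMonoid.End V) (L : AddSubgroup V) (n : ℕ) : Prop where
  tors : ∀ v : V, p ^ n • v = 0
  lvl : ∃ U : Subgroup GQ, U.Normal ∧ IsOpen (U : Set GQ) ∧ ∀ u ∈ U, ∀ v, ρ u v = v
  cyc : ∀ σ ∈ A.inertiaSubgroupIn ℚ, ∀ l ∈ L,
    ρ σ l = (PadicInt.toZModPow n (cycP p σ)).val • l
  quot : ∀ σ ∈ A.inertiaSubgroupIn ℚ, ∀ v, ρ σ v - v ∈ L

namespace Ordi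

variable {p : ℕ} [hp : Fact p.Prime] {A : ValuationSubring Qbar} {V : Type*} [AddCommGroup V]
  {ρ : GQ →* AddMonoid.End V} {L : AddSubgroup V} {n : ℕ} (h : Ordi p A ρ L n)

include h

theorem chi_pow (χ : AddChar L Qbar) (l : L) : χ l ^ p ^ n = 1 := by
  rw [← AddChar.map_nsmul_eq_pow]
  have : p ^ n • l = 0 := Subtype.ext (h.tors l)
  rw [this, AddChar.map_zero_eq_one]

theorem chi_ne (χ : AddChar L Qbar) (l : L) : χ l ≠ 0 := by
  intro h0
  have := h.chi_pow χ l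
  rw [h0, zero_pow (pow_ne_zero _ hp.out.ne_zero)] at this
  exact zero_ne_one this

theorem stab {σ : GQ} (hσ : σ ∈ A.inertiaSubgroupIn ℚ) {l : V} (hl : l ∈ L) : ρ σ l ∈ L := by
  have := L.add_mem (h.quot σ hσ l) hl
  rwa [sub_add_cancel] at this

theorem chi_act (χ : AddChar L Qbar) {σ : GQ} (hσ : σ ∈ A.inertiaSubgroupIn ℚ) (l : L) :
    χ ⟨ρ σ l, h.stab hσ l.2⟩ = σ (χ l) := by
  rw [cycP_spec p σ (h.chi_pow χ l), ← AddChar.map_nsmul_eq_pow]
  congr 1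
  exact Subtype.ext (h.cyc σ hσ l l.2)

theorem end_sub (σ : GQ) (x y : V) : ρ σ (x - y) = ρ σ x - ρ σ y := map_sub (ρ σ) x y

/-- **Kummer generators** -/
theorem exists_kummer (χ : AddChar L Qbar) (y : V) : ∃ η : Qbar, Kum p A η ∧
    ∀ (σ : GQ) (hσ : σ ∈ A.inertiaSubgroupIn ℚ),
      σ η = χ ⟨ρ σ y - y, h.quot σ hσ y⟩ * η := by
  obtain ⟨U, -, hU, hUρ⟩ := h.lvl
  obtain ⟨η, hη0, hη⟩ := h90 (A.inertiaSubgroupIn ℚ) hU
    (fun σ => χ ⟨ρ σ y - y, h.quot σ σ.2 y⟩) (fun σ => h.chi_ne χ _) (by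
      intro σ τ
      rw [← h.chi_act χ σ.2, ← AddChar.map_add_eq_mul]
      congr 1
      apply Subtype.ext
      change ρ (σ * τ : GQ) y - y = (ρ σ y - y) + ρ σ (ρ τ y - y)
      rw [map_mul, map_sub]
      change ρ σ (ρ τ y) - y = (ρ σ y - y) + (ρ σ (ρ τ y) - ρ σ y)
      abel) (by
      intro σ hσ
      have h1 : (⟨ρ σ y - y, h.quot σ σ.2 y⟩ : L) = 0 :=
        Subtype.ext (by
          change ρ (σ : GQ) y - y = 0
          rw [hUρ _ hσ, sub_self])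
      rw [h1, AddChar.map_zero_eq_one])
  refine ⟨η, ⟨hη0, n, ?_⟩, fun σ hσ => hη ⟨σ, hσ⟩⟩
  rw [mem_K0]
  intro σ hσ
  rw [map_pow, hη ⟨σ, hσ⟩, mul_pow, h.chi_pow, one_mul]

/-- unit Kummer generators -/
theorem exists_unit (hA : A.LiesOverPrime p) {τ : GQ} (hτ : IsTau p A τ)
    (χ : AddChar L Qbar) {y : V} (hy : ρ τ y = y) :
    ∃ η : Qbar, A.valuation η = 1 ∧ ∀ (σ : GQ) (hσ : σ ∈ A.inertiaSubgroupIn ℚ),
      σ η = χ ⟨ρ σ y - y, h.quot σ hσ y⟩ * η := by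
  obtain ⟨η, hη, hησ⟩ := h.exists_kummer χ y
  have h1 : τ η = η := by
    rw [hησ τ (mem_Iinf.mp hτ.mem).1]
    have h2 : (⟨ρ τ y - y, h.quot τ (mem_Iinf.mp hτ.mem).1 y⟩ : L) = 0 :=
      Subtype.ext (by
        change ρ τ y - y = 0
        rw [hy, sub_self])
    rw [h2, AddChar.map_zero_eq_one, one_mul]
  obtain ⟨m, hm⟩ := hτ.val_of_fixed hA hη h1
  refine ⟨η / (p : Qbar) ^ m, ?_, fun σ hσ => ?_⟩
  · rw [map_div₀, hm, map_zpow₀, div_self (zpow_ne_zero _ val_p_ne)]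
  · rw [map_div₀, hησ σ hσ, map_zpow₀, map_natCast, mul_div_assoc]

omit h in
/-- generators of the order -/
def Gen (A : ValuationSubring Qbar) (ρ : GQ →* AddMonoid.End V) (L : AddSubgroup V) :
    Set (V → Qbar) :=
  {f | ∃ (y : V) (χ : AddChar L Qbar) (η : Qbar), η ∈ A ∧
    (∀ l : L, f (y + l) = χ l * η) ∧ (∀ v, v - y ∉ L → f v = 0) ∧
    ∀ σ ∈ A.inertiaSubgroupIn ℚ, ∀ v, f (ρ σ v) = σ (f v)}

/-- the standard generator -/
theorem gen_mem (χ : AddChar L Qbar) (y : V) {η : Qbar} (hη : η ∈ A)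
    (hησ : ∀ (σ : GQ) (hσ : σ ∈ A.inertiaSubgroupIn ℚ),
      σ η = χ ⟨ρ σ y - y, h.quot σ hσ y⟩ * η) :
    ∃ f ∈ Gen A ρ L, (∀ l : L, f (y + l) = χ l * η) ∧ ∀ v, v - y ∉ L → f v = 0 := by
  classical
  let f : V → Qbar := fun v => if hv : v - y ∈ L then χ ⟨v - y, hv⟩ * η else 0
  have hf1 : ∀ l : L, f (y + l) = χ l * η := by
    intro l
    have h1 : y + (l : V) - y ∈ L := by rw [add_sub_cancel_left]; exact l.2
    change (if hv : y + (l : V) - y ∈ L then χ ⟨y + (l : V) - y, hv⟩ * η else 0) = _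
    rw [dif_pos h1]
    congr 2
    exact Subtype.ext (add_sub_cancel_left _ _)
  have hf2 : ∀ v, v - y ∉ L → f v = 0 := fun v hv => dif_neg hv
  refine ⟨f, ⟨y, χ, η, hη, hf1, hf2, ?_⟩, hf1, hf2⟩
  intro σ hσ v
  by_cases hv : v - y ∈ L
  · have hv' : v = y + ((⟨v - y, hv⟩ : L) : V) := by
      change v = y + (v - y)
      abel
    have h1 : ρ σ v = y + (((⟨ρ σ y - y, h.quot σ hσ y⟩ : L) + ⟨ρ σ (v - y), h.stab hσ hv⟩ : L) :
        V) := by
      change ρ σ v = y + ((ρ σ y - y) + ρ σ (v - y))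
      rw [map_sub]
      abel
    have h2 : f (ρ σ v) = χ ((⟨ρ σ y - y, h.quot σ hσ y⟩ : L) +
        ⟨ρ σ (v - y), h.stab hσ hv⟩) * η := by rw [h1, hf1]
    have h3 : f v = χ ⟨v - y, hv⟩ * η := dif_pos hv
    rw [h2, h3, map_mul, hησ σ hσ, AddChar.map_add_eq_mul, ← h.chi_act χ hσ ⟨v - y, hv⟩]
    ring
  · have h1 : ρ σ v - y ∉ L := by
      intro h2
      apply hv
      have h3 := L.sub_mem h2 (h.quot σ hσ v)
      have h4 : ρ σ v - y - (ρ σ v - v) = v - y := by abel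
      rwa [h4] at h3
    rw [hf2 _ h1, hf2 _ hv, map_zero]

end Ordi

end Fermat.Agent.SelP
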