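import Fermat.Agent.SelP.Flat

/-!
# Extensions of unramified modules by multiplicative ones: unit classes are flat, II
-/

set_option autoImplicit false
set_option linter.unusedSectionVars false
set_option linter.style.haveILetI false

noncomputable section

namespace Fermat.Agent.SelP

open Fermat.Agent.GalRep Fermat.Agent.Carayol Fermat.Agent.AtP Fermat.Agent.PicFlat
  Fermat.Agent.FlatLoc
open scoped Pointwise

local notation "Qbar" => AlgebraicClosure ℚ
local notation "GQ" => (AlgebraicClosure ℚ ≃ₐ[ℚ] AlgebraicClosure ℚ)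

namespace Ordi

variable {p : ℕ} [hp : Fact p.Prime] {A : ValuationSubring Qbar} {V : Type*} [AddCommGroup V]
  {ρ : GQ →* AddMonoid.End V} {L : AddSubgroup V} {n : ℕ} (h : Ordi p A ρ L n)

/-- the ring of functions -/
def HH (A : ValuationSubring Qbar) (ρ : GQ →* AddMonoid.End V) (L : AddSubgroup V) :
    Subring (V → Qbar) := Subring.closure (Gen A ρ L)

include h

theorem val_gen {f : V → Qbar} (hf : f ∈ Gen A ρ L) (v : V) : f v ∈ A := by
  obtain ⟨y, χ, η, hη, h1, h2, -⟩ := hf
  by_cases hv : v - y ∈ L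
  · have h3 : v = y + ((⟨v - y, hv⟩ : L) : V) := by
      change v = y + (v - y)
      abel
    rw [h3, h1]
    exact A.mul_mem _ _ (mem_of_pow_eq_one (pow_ne_zero n hp.out.ne_zero) (h.chi_pow χ _)) hη
  · rw [h2 v hv]; exact A.zero_mem

theorem val_HH {f : V → Qbar} (hf : f ∈ HH A ρ L) (v : V) : f v ∈ A := by
  unfold HH at hf
  induction hf using Subring.closure_induction with
  | mem f hf => exact h.val_gen hf v
  | zero => exact A.zero_mem
  | one => exact A.one_mem
  | add f g _ _ hf hg => exact A.add_mem _ _ hf hg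
  | neg f _ hf => exact A.neg_mem _ hf
  | mul f g _ _ hf hg => exact A.mul_mem _ _ hf hg

omit h in
theorem equiv_HH {f : V → Qbar} (hf : f ∈ HH A ρ L) {σ : GQ} (hσ : σ ∈ A.inertiaSubgroupIn ℚ)
    (v : V) : f (ρ σ v) = σ (f v) := by
  unfold HH at hf
  induction hf using Subring.closure_induction with
  | mem f hf => obtain ⟨-, -, -, -, -, -, h3⟩ := hf; exact h3 σ hσ v
  | zero => exact (map_zero σ).symm
  | one => exact (map_one σ).symm
  | add f g _ _ hf hg => rw [Pi.add_apply, Pi.add_apply, map_add, hf, hg]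
  | neg f _ hf => rw [Pi.neg_apply, Pi.neg_apply, map_neg, hf]
  | mul f g _ _ hf hg => rw [Pi.mul_apply, Pi.mul_apply, map_mul, hf, hg]

variable {τ : GQ}

/-- unit generators -/
theorem exists_gen (hA : A.LiesOverPrime p) (hτ : IsTau p A τ) (hρτ : ∀ v, ρ τ v = v)
    (χ : AddChar L Qbar) (y : V) : ∃ (f : V → Qbar) (η : Qbar), f ∈ Gen A ρ L ∧
      A.valuation η = 1 ∧ (∀ l : L, f (y + l) = χ l * η) ∧ (∀ v, v - y ∉ L → f v = 0) ∧
      ∀ (σ : GQ) (hσ : σ ∈ A.inertiaSubgroupIn ℚ),
        σ η = χ ⟨ρ σ y - y, h.quot σ hσ y⟩ * η := by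
  obtain ⟨η, hη, hησ⟩ := h.exists_unit hA hτ χ (hρτ y)
  obtain ⟨f, hf, hf1, hf2⟩ := h.gen_mem χ y ((A.valuation_le_one_iff _).mp hη.le) hησ
  exact ⟨f, η, hf, hη, hf1, hf2, hησ⟩

theorem sep_HH [Finite V] (hA : A.LiesOverPrime p) (hτ : IsTau p A τ) (hρτ : ∀ v, ρ τ v = v)
    (x y : V) (hxy : ∀ f ∈ HH A ρ L, f x = f y) : x = y := by
  by_contra hne
  have hval : ∀ η : Qbar, A.valuation η = 1 → η ≠ 0 := by
    rintro _ h1 rfl
    rw [map_zero] at h1
    exact zero_ne_one h1
  have hmem : y - x ∈ L := by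
    by_contra hcon
    obtain ⟨f, η, hf, hη, h1, h2, -⟩ := h.exists_gen hA hτ hρτ (1 : AddChar L Qbar) x
    have h3 := hxy f (Subring.subset_closure hf)
    have h4 := h1 0
    rw [AddSubgroup.coe_zero, add_zero, AddChar.map_zero_eq_one, one_mul] at h4
    rw [h4, h2 y hcon] at h3
    exact hval η hη h3
  have hne' : (⟨y - x, hmem⟩ : L) ≠ 0 := by
    intro h0
    apply hne
    have := congrArg Subtype.val h0
    change y - x = 0 at this
    exact (sub_eq_zero.mp this).symm
  obtain ⟨χ, hχ⟩ := exists_addChar hne'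
  obtain ⟨f, η, hf, hη, h1, h2, -⟩ := h.exists_gen hA hτ hρτ χ x
  have h3 := hxy f (Subring.subset_closure hf)
  have h4 := h1 0
  have h5 := h1 ⟨y - x, hmem⟩
  rw [AddSubgroup.coe_zero, add_zero, AddChar.map_zero_eq_one, one_mul] at h4
  have h6 : x + ((⟨y - x, hmem⟩ : L) : V) = y := by
    change x + (y - x) = y
    abel
  rw [h6, ← h3, h4] at h5
  apply hχ
  exact mul_right_cancel₀ (hval η hη) (by rw [← h5, one_mul])

theorem comul_gen [Finite V] (hA : A.LiesOverPrime p) (hτ : IsTau p A τ)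
    (hρτ : ∀ v, ρ τ v = v) {f : V → Qbar} (hf : f ∈ Gen A ρ L) :
    (fun q : V × V => f (q.1 + q.2)) ∈ sq (HH A ρ L) := by
  classical
  obtain ⟨y, χ, η, hη, h1, h2, h3⟩ := hf
  haveI : Finite (V ⧸ L) := inferInstance
  haveI := Fintype.ofFinite (V ⧸ L)
  -- the value equation of `η`
  have hησ : ∀ (σ : GQ) (hσ : σ ∈ A.inertiaSubgroupIn ℚ),
      σ η = χ ⟨ρ σ y - y, h.quot σ hσ y⟩ * η := by
    intro σ hσ
    have h4 := h3 σ hσ y
    have h5 : ρ σ y = y + ((⟨ρ σ y - y, h.quot σ hσ y⟩ : L) : V) := by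
      change ρ σ y = y + (ρ σ y - y)
      abel
    rw [h5, h1] at h4
    have h6 := h1 0
    rw [AddSubgroup.coe_zero, add_zero, AddChar.map_zero_eq_one, one_mul] at h6
    rw [h6] at h4
    exact h4.symm
  choose g ε hg hε hg1 hg2 hgσ using fun c : V ⧸ L => h.exists_gen hA hτ hρτ χ c.out
  have hε0 : ∀ c, ε c ≠ 0 := by
    intro c h0
    have := hε c
    rw [h0, map_zero] at this
    exact zero_ne_one this
  have hout : ∀ x : V, x - ((x : V ⧸ L)).out ∈ L := by
    intro x
    have h4 : (((x : V ⧸ L).out : V) : V ⧸ L) = (x : V ⧸ L) := QuotientAddGroup.out_eq' _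
    have h5 := QuotientAddGroup.eq.mp h4
    rwa [neg_add_eq_sub] at h5
  have hcos : ∀ (c : V ⧸ L) (x : V), x - c.out ∈ L → (x : V ⧸ L) = c := by
    intro c x hx
    have h4 : ((c.out : V) : V ⧸ L) = (x : V ⧸ L) := by
      rw [QuotientAddGroup.eq, neg_add_eq_sub]; exact hx
    rw [← h4]
    exact QuotientAddGroup.out_eq' _
  -- the decomposition
  have key : ∀ c c' : V ⧸ L, ∃ k ∈ sq (HH A ρ L), ∀ q : V × V,
      k q = if (q.1 : V ⧸ L) = c ∧ (q.2 : V ⧸ L) = c' then f (q.1 + q.2) else 0 := by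
    intro c c'
    by_cases hcc : c.out + c'.out - y ∈ L
    · set d : L := ⟨c.out + c'.out - y, hcc⟩ with hd
      set κ := η * χ d / (ε c * ε c') with hκ
      have hκA : κ ∈ A := by
        rw [← A.valuation_le_one_iff, hκ, map_div₀, map_mul, map_mul, hε, hε, mul_one, div_one,
          val_root (pow_ne_zero n hp.out.ne_zero) (h.chi_pow χ d), mul_one]
        exact (A.valuation_le_one_iff _).mpr hη
      have hκσ : ∀ σ ∈ A.inertiaSubgroupIn ℚ, σ κ = κ := by
        intro σ hσ
        have h4 : (⟨ρ σ y - y, h.quot σ hσ y⟩ : L) + ⟨ρ σ d, h.stab hσ d.2⟩ =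
            d + (⟨ρ σ c.out - c.out, h.quot σ hσ _⟩ : L) +
              ⟨ρ σ c'.out - c'.out, h.quot σ hσ _⟩ := by
          apply Subtype.ext
          change (ρ σ y - y) + ρ σ (c.out + c'.out - y) =
            (c.out + c'.out - y) + (ρ σ c.out - c.out) + (ρ σ c'.out - c'.out)
          rw [map_sub, map_add]
          abel
        have h5 := congrArg χ h4
        rw [AddChar.map_add_eq_mul, AddChar.map_add_eq_mul, AddChar.map_add_eq_mul] at h5
        rw [hκ, map_div₀, map_mul, map_mul, hησ σ hσ, hgσ c σ hσ, hgσ c' σ hσ,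
          ← h.chi_act χ hσ d]
        have hn1 := h.chi_ne χ ⟨ρ σ c.out - c.out, h.quot σ hσ _⟩
        have hn2 := h.chi_ne χ ⟨ρ σ c'.out - c'.out, h.quot σ hσ _⟩
        rw [div_eq_div_iff (mul_ne_zero (mul_ne_zero hn1 (hε0 c)) (mul_ne_zero hn2 (hε0 c')))
          (mul_ne_zero (hε0 c) (hε0 c'))]
        linear_combination (η * ε c * ε c') * h5
      -- `κ g_c` is a generator
      obtain ⟨g', hg', hg'1, hg'2⟩ := h.gen_mem χ c.out (η := κ * ε c)
        (A.mul_mem _ _ hκA ((A.valuation_le_one_iff _).mp (hε c).le)) (by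
          intro σ hσ
          rw [map_mul, hκσ σ hσ, hgσ c σ hσ]
          ring)
      refine ⟨(fun q : V × V => g' q.1) * fun q : V × V => g c' q.2,
        mul_mem (fst_mem_sq (Subring.subset_closure hg'))
          (snd_mem_sq (Subring.subset_closure (hg c'))), ?_⟩
      rintro ⟨x, x'⟩
      rw [Pi.mul_apply]
      by_cases hx : x - c.out ∈ L
      · by_cases hx' : x' - c'.out ∈ L
        · rw [if_pos ⟨hcos c x hx, hcos c' x' hx'⟩]
          have e1 : x = c.out + ((⟨x - c.out, hx⟩ : L) : V) := by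
            change x = c.out + (x - c.out)
            abel
          have e2 : x' = c'.out + ((⟨x' - c'.out, hx'⟩ : L) : V) := by
            change x' = c'.out + (x' - c'.out)
            abel
          have e3 : x + x' = y + ((d + ⟨x - c.out, hx⟩ + ⟨x' - c'.out, hx'⟩ : L) : V) := by
            change x + x' = y + ((c.out + c'.out - y) + (x - c.out) + (x' - c'.out))
            abel
          have f1 : g' x = χ ⟨x - c.out, hx⟩ * (κ * ε c) := by conv_lhs => rw [e1, hg'1]
          have f2 : g c' x' = χ ⟨x' - c'.out, hx'⟩ * ε c' := by conv_lhs => rw [e2, hg1]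
          have f3 : f (x + x') = χ (d + ⟨x - c.out, hx⟩ + ⟨x' - c'.out, hx'⟩) * η := by
            rw [e3, h1]
          change g' x * g c' x' = f (x + x')
          rw [f1, f2, f3, AddChar.map_add_eq_mul, AddChar.map_add_eq_mul, hκ]
          have := hε0 c
          have := hε0 c'
          field_simp
        · rw [if_neg (fun hcon => hx' (by rw [← hcon.2]; exact hout x'))]
          change g' x * g c' x' = 0
          rw [hg2 c' x' hx', mul_zero]
      · rw [if_neg (fun hcon => hx (by rw [← hcon.1]; exact hout x))]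
        change g' x * g c' x' = 0
        rw [hg'2 x hx, zero_mul]
    · refine ⟨0, zero_mem _, ?_⟩
      rintro ⟨x, x'⟩
      rw [Pi.zero_apply]
      split_ifs with hc
      · obtain ⟨hc1, hc2⟩ := hc
        symm
        apply h2
        intro h4
        apply hcc
        have h5 : x - c.out ∈ L := by rw [← hc1]; exact hout x
        have h6 : x' - c'.out ∈ L := by rw [← hc2]; exact hout x'
        have h7 := L.sub_mem (L.sub_mem h4 h5) h6
        have h8 : x + x' - y - (x - c.out) - (x' - c'.out) = c.out + c'.out - y := by abel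
        rwa [h8] at h7
      · rfl
  choose k hk hkq using key
  have hsum : (fun q : V × V => f (q.1 + q.2)) = ∑ c : V ⧸ L, ∑ c' : V ⧸ L, k c c' := by
    funext q
    rw [Finset.sum_apply, Finset.sum_eq_single (q.1 : V ⧸ L)]
    · rw [Finset.sum_apply, Finset.sum_eq_single (q.2 : V ⧸ L)]
      · rw [hkq, if_pos ⟨rfl, rfl⟩]
      · intro c' _ hc'
        rw [hkq, if_neg (fun hcon => hc' hcon.2.symm)]
      · intro hcon; exact absurd (Finset.mem_univ _) hcon
    · intro c _ hc
      rw [Finset.sum_apply]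
      refine Finset.sum_eq_zero fun c' _ => ?_
      rw [hkq, if_neg (fun hcon => hc hcon.1.symm)]
    · intro hcon; exact absurd (Finset.mem_univ _) hcon
  rw [hsum]
  exact sum_mem fun c _ => sum_mem fun c' _ => hk c c'

/-- **(FLAT)** extensions with unit classes are flat -/
theorem isFlatMod [Finite V] (hA : A.LiesOverPrime p) (hτ : IsTau p A τ)
    (hρτ : ∀ v, ρ τ v = v) : IsFlatMod (Zloc p) ρ := by
  have hloc : LocData A ρ (HH A ρ L) :=
    { val := fun f hf x => h.val_HH hf x
      equiv := fun f hf σ hσ x => equiv_HH hf hσ x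
      sep := fun x y hxy => h.sep_HH hA hτ hρτ x y hxy
      comul := by
        intro f hf
        unfold HH at hf
        induction hf using Subring.closure_induction with
        | mem f hf => exact h.comul_gen hA hτ hρτ hf
        | zero => exact zero_mem _
        | one => exact one_mem _
        | add f g _ _ hf hg => exact add_mem hf hg
        | neg f _ hf => exact neg_mem hf
        | mul f g _ _ hf hg => exact mul_mem hf hg }
  obtain ⟨U, hUn, hU, hUρ⟩ := h.lvl
  haveI := hUn
  exact hloc.isFlatMod hp.out hA hU hUρ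

end Ordi

end Fermat.Agent.SelP
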