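import Fermat.Agent.SelP.Tau2
import Fermat.Agent.PicFlat.Descent

/-!
# Hilbert 90 for closed subgroups; unit Kummer generators
-/

set_option autoImplicit false
set_option linter.unusedSectionVars false
set_option linter.style.haveILetI false

noncomputable section

namespace Fermat.Agent.SelP

open Fermat.Agent.GalRep Fermat.Agent.Carayol Fermat.Agent.AtP
open scoped Pointwise

local notation "Qbar" => AlgebraicClosure ℚ
local notation "GQ" => (AlgebraicClosure ℚ ≃ₐ[ℚ] AlgebraicClosure ℚ)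

/-- **Hilbert 90** -/
theorem h90 (I : Subgroup GQ) {U : Subgroup GQ} (hU : IsOpen (U : Set GQ)) (a : I → Qbar)
    (ha0 : ∀ σ, a σ ≠ 0) (hmul : ∀ σ τ : I, a (σ * τ) = a σ * (σ : GQ) (a τ))
    (h1 : ∀ σ : I, (σ : GQ) ∈ U → a σ = 1) :
    ∃ η : Qbar, η ≠ 0 ∧ ∀ σ : I, (σ : GQ) η = a σ * η := by
  classical
  haveI : Finite (GQ ⧸ U) := Subgroup.quotient_finite_of_isOpen U hU
  haveI : U.FiniteIndex := Subgroup.finiteIndex_of_finite_quotient
  let Q := I ⧸ U.subgroupOf I
  haveI : Finite Q := inferInstance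
  haveI := Fintype.ofFinite Q
  let L : IntermediateField ℚ Qbar := IntermediateField.fixedField U
  have hLU : L.fixingSubgroup = U :=
    InfiniteGalois.fixingSubgroup_fixedField ⟨U, Subgroup.isClosed_of_isOpen U hU⟩
  let f : Q → (L →* Qbar) := fun q =>
    ((((q.out : I) : GQ) : Qbar →+* Qbar) : Qbar →* Qbar).comp (algebraMap L Qbar : L →* Qbar)
  have hf : Function.Injective f := by
    intro q q' h
    rw [← QuotientGroup.out_eq' q, ← QuotientGroup.out_eq' q', QuotientGroup.eq,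
      Subgroup.mem_subgroupOf]
    suffices hmem : ((((q.out : I) : GQ))⁻¹ * ((q'.out : I) : GQ)) ∈ L.fixingSubgroup by
      rw [hLU] at hmem
      exact hmem
    rw [IntermediateField.mem_fixingSubgroup_iff]
    intro x hx
    have h2 : ((q.out : I) : GQ) x = ((q'.out : I) : GQ) x :=
      DFunLike.congr_fun h (⟨x, hx⟩ : L)
    change ((((q.out : I) : GQ))⁻¹ * ((q'.out : I) : GQ)) x = x
    rw [AlgEquiv.mul_apply, ← h2, ← AlgEquiv.mul_apply, inv_mul_cancel]
    rfl
  have hli := (linearIndependent_monoidHom L Qbar).comp f hf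
  rw [Fintype.linearIndependent_iff] at hli
  obtain ⟨θ, hθ⟩ : ∃ θ : L, ∑ q : Q, a q.out * ((q.out : I) : GQ) θ ≠ 0 := by
    by_contra hcon
    push Not at hcon
    refine ha0 ((1 : I) : Q).out (hli (fun q => a q.out) ?_ ((1 : I) : Q))
    funext θ
    rw [Finset.sum_apply, Pi.zero_apply, ← hcon θ]
    rfl
  set β := ∑ q : Q, a q.out * ((q.out : I) : GQ) θ with hβ
  -- right invariance
  have hinv : ∀ σ : I, a σ * (σ : GQ) θ =
      a ((σ : I) : Q).out * (((σ : I) : Q).out : GQ) θ := by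
    intro σ
    obtain ⟨u, hu⟩ := QuotientGroup.mk_out_eq_mul (U.subgroupOf I) σ
    have huU : ((u : I) : GQ) ∈ U := u.2
    rw [hu, hmul, h1 _ huU, map_one, mul_one]
    congr 1
    change (σ : GQ) θ = ((σ : GQ) * ((u : I) : GQ)) θ
    rw [AlgEquiv.mul_apply, (IntermediateField.mem_fixedField_iff U (θ : Qbar)).mp θ.2 _ huU]
  have hσβ : ∀ σ : I, a σ * (σ : GQ) β = β := by
    intro σ
    rw [hβ, map_sum, Finset.mul_sum]
    refine Fintype.sum_equiv (MulAction.toPerm σ) _ _ fun q => ?_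
    rw [map_mul, ← mul_assoc, ← hmul, MulAction.toPerm_apply]
    have h2 : ((σ * q.out : I) : Q) = σ • q := by
      conv_rhs => rw [← QuotientGroup.out_eq' q]
      rfl
    rw [← h2, ← hinv (σ * q.out)]
    rfl
  refine ⟨β⁻¹, inv_ne_zero hθ, fun σ => ?_⟩
  have h2 := hσβ σ
  rw [map_inv₀]
  have h4 : β⁻¹ = (a σ)⁻¹ * ((σ : GQ) β)⁻¹ := by rw [← mul_inv, h2]
  rw [h4, mul_inv_cancel_left₀ (ha0 σ)]

end Fermat.Agent.SelP
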