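import Fermat.Agent.SelP.OrdFl

/-!
# Ordinary matrices over complete rings: the monodromy entry
-/

set_option autoImplicit false
set_option maxHeartbeats 400000
set_option linter.unusedSectionVars false
set_option linter.style.haveILetI false

noncomputable section

namespace Fermat.Agent.SelP

open IsLocalRing Matrix Fermat.Agent.DefRing Fermat.Agent.GalRep Fermat.Agent.TWGal
  Fermat.Agent.TWPatch Fermat.Agent.TW56 GaloisRep Fermat.Agent.RT Fermat.Agent.AtP
  Fermat.Agent.FlatLoc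

local notation "Qbar" => AlgebraicClosure ℚ

variable {p : ℕ} [hp : Fact p.Prime] {A : ValuationSubring Qbar}

/-- upper triangular on the decomposition group, `1` on inertia in the corner -/
structure TriAt (A : ValuationSubring Qbar) {R : Type} [CommRing R]
    (T : GQ →* Matrix (Fin 2) (Fin 2) R) : Prop where
  dec : ∀ σ ∈ A.decompositionSubgroup ℚ, T σ 1 0 = 0
  inr : ∀ σ ∈ A.inertiaSubgroupIn ℚ, T σ 1 1 = 1

theorem TriAt.map {R C : Type} [CommRing R] [CommRing C] {T : GQ →* Matrix (Fin 2) (Fin 2) R}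
    (h : TriAt A T) (f : R →+* C) : TriAt A (mapT f T) :=
  ⟨fun σ hσ => by rw [mapT_apply, h.dec σ hσ, map_zero],
    fun σ hσ => by rw [mapT_apply, h.inr σ hσ, map_one]⟩

/-- the line -/
def ln (C : Type) [CommRing C] : AddSubgroup (Fin 2 → C) where
  carrier := {v | v 1 = 0}
  zero_mem' := rfl
  add_mem' := fun {a b} ha hb => by
    change a 1 + b 1 = 0
    rw [show a 1 = 0 from ha, show b 1 = 0 from hb, add_zero]
  neg_mem' := fun {a} ha => by
    change -(a 1) = 0
    rw [show a 1 = 0 from ha, neg_zero]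

theorem vec_apply {C : Type} [CommRing C] (T : GQ →* Matrix (Fin 2) (Fin 2) C) (σ : GQ)
    (v : Fin 2 → C) (i : Fin 2) : (vecRep T σ v) i = T σ i 0 * v 0 + T σ i 1 * v 1 := by
  change (T σ *ᵥ v) i = _
  rw [Matrix.mulVec, dotProduct, Fin.sum_univ_two]

theorem ordi_vecRep {C : Type} [CommRing C] {T : GQ →* Matrix (Fin 2) (Fin 2) C}
    (hT : TriAt A T) {n : ℕ} (hn : ((p ^ n : ℕ) : C) = 0)
    (hdet : ∀ σ, (T σ).det = (cexp p n σ : C)) (hU : IsOpen (T.ker : Set GQ)) :
    Ordi p A (vecRep T) (ln C) n where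
  tors v := by
    ext i
    rw [Pi.smul_apply, nsmul_eq_mul, hn, zero_mul]
    rfl
  lvl := ⟨T.ker, MonoidHom.normal_ker T, hU, fun u hu v => by
    have h1 : T u = 1 := hu
    change T u *ᵥ v = v
    rw [h1, Matrix.one_mulVec]⟩
  cyc σ hσ l hl := by
    have hl' : l 1 = 0 := hl
    have h10 := hT.dec σ (inertia_le hσ)
    have h11 := hT.inr σ hσ
    have h00 : T σ 0 0 = (cexp p n σ : C) := by
      rw [← hdet σ, Matrix.det_fin_two, h10, h11]
      ring
    ext i
    rw [vec_apply, hl', mul_zero, add_zero, Pi.smul_apply, nsmul_eq_mul]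
    fin_cases i
    · change T σ 0 0 * l 0 = _
      rw [h00]
      rfl
    · change T σ 1 0 * l 0 = _ * l 1
      rw [h10, hl', zero_mul, mul_zero]
  quot σ hσ v := by
    change (vecRep T σ v) 1 - v 1 = 0
    rw [vec_apply, hT.dec σ (inertia_le hσ), hT.inr σ hσ]
    ring

theorem exists_pow_bot (C : Type) [CommRing C] [IsLocalRing C] [Finite C] :
    ∃ k, maximalIdeal C ^ k = ⊥ := by
  haveI : IsArtinianRing C := inferInstance
  have h := IsArtinianRing.isNilpotent_jacobson_bot (R := C)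
  rw [IsLocalRing.jacobson_eq_maximalIdeal ⊥ bot_ne_top] at h
  exact h

theorem isOpen_ker {C : Type} [CommRing C] [IsLocalRing C] [Finite C]
    {T : GQ →* Matrix (Fin 2) (Fin 2) C} (hT : MatCont T) : IsOpen (T.ker : Set GQ) := by
  obtain ⟨k, hk⟩ := exists_pow_bot C
  obtain ⟨L, hL, h⟩ := hT k
  refine Subgroup.isOpen_mono (H₁ := L.fixingSubgroup) (fun σ hσ' => ?_)
    (IntermediateField.fixingSubgroup_isOpen L)
  have hσ : ∀ x ∈ L, σ x = x := fun x hx =>
    (IntermediateField.mem_fixingSubgroup_iff L σ).mp hσ' x hx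
  rw [MonoidHom.mem_ker]
  ext i j
  have := h σ hσ i j
  rw [hk, Ideal.mem_bot, sub_eq_zero] at this
  exact this

/-- the structure at a finite level -/
theorem ordi_fin {C : Type} [CommRing C] [IsLocalRing C] [Finite C]
    (hpC : (p : C) ∈ maximalIdeal C) {T : GQ →* Matrix (Fin 2) (Fin 2) C} (hc : MatCont T)
    (hT : TriAt A T) (hdet : MDet p T) :
    ∃ n, (∀ σ, (T σ).det = (cexp p n σ : C)) ∧ Ordi p A (vecRep T) (ln C) n := by
  obtain ⟨n, hn⟩ := exists_pow_bot C
  have hN : ((p ^ n : ℕ) : C) = 0 := by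
    have h1 : ((p ^ n : ℕ) : C) ∈ maximalIdeal C ^ n := by
      rw [Nat.cast_pow]
      exact Ideal.pow_mem_pow hpC n
    rwa [hn, Ideal.mem_bot] at h1
  have hd := (mdet_iff hN).mp hdet
  exact ⟨n, hd, ordi_vecRep hT hN hd (isOpen_ker hc)⟩

/-- flatness when the monodromy vanishes -/
theorem flat_fin {C : Type} [CommRing C] [IsLocalRing C] [Finite C]
    (hpC : (p : C) ∈ maximalIdeal C) {T : GQ →* Matrix (Fin 2) (Fin 2) C} (hc : MatCont T)
    (hT : TriAt A T) (hdet : MDet p T) (hA : A.LiesOverPrime p) {τ : GQ} (hτ : IsTau p A τ)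
    (h1 : T τ = 1) : IsFlatMod (Zloc p) (vecRep T) := by
  obtain ⟨n, -, h⟩ := ordi_fin hpC hc hT hdet
  refine h.isFlatMod hA hτ fun v => ?_
  change T τ *ᵥ v = v
  rw [h1, Matrix.one_mulVec]

/-- the monodromy relation at a finite level -/
theorem conj_fin {C : Type} [CommRing C] [IsLocalRing C] [Finite C]
    (hpC : (p : C) ∈ maximalIdeal C) {T : GQ →* Matrix (Fin 2) (Fin 2) C} (hc : MatCont T)
    (hT : TriAt A T) (hdet : MDet p T) (hA : A.LiesOverPrime p) {τ φ : GQ} (hτ : IsTau p A τ)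
    (hφ : φ ∈ A.decompositionSubgroup ℚ) : T (φ * τ * φ⁻¹) - 1 = (T φ).det • (T τ - 1) := by
  obtain ⟨n, hd, h⟩ := ordi_fin hpC hc hT hdet
  refine Matrix.ext_of_mulVec_single fun i => ?_
  have h1 := h.conj_eq hA hτ hφ (Pi.single i 1)
  rw [Matrix.sub_mulVec, Matrix.one_mulVec, Matrix.smul_mulVec, Matrix.sub_mulVec,
    Matrix.one_mulVec, hd φ]
  refine Eq.trans h1 ?_
  rw [← Nat.cast_smul_eq_nsmul C]
  rfl

section Ring

variable {R : Type} [CommRing R] [IsLocalRing R] [IsNoetherianRing R] [Finite (ResidueField R)]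
  {T : GQ →* Matrix (Fin 2) (Fin 2) R}

/-- the monodromy relation -/
theorem conj_adic (hpR : (p : R) ∈ maximalIdeal R) (hc : MatCont T) (hT : TriAt A T)
    (hdet : MDet p T) (hA : A.LiesOverPrime p) {τ φ : GQ} (hτ : IsTau p A τ)
    (hφ : φ ∈ A.decompositionSubgroup ℚ) : T (φ * τ * φ⁻¹) - 1 = (T φ).det • (T τ - 1) := by
  ext i j
  rw [← sub_eq_zero]
  have key : (T (φ * τ * φ⁻¹) - 1) i j - ((T φ).det • (T τ - 1)) i j ∈
      (⨅ n : ℕ, maximalIdeal R ^ n : Ideal R) := by
    rw [Ideal.mem_iInf]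
    intro n
    rcases Nat.eq_zero_or_pos n with rfl | hn
    · rw [pow_zero, Ideal.one_eq_top]; trivial
    set ψ := Ideal.Quotient.mk (maximalIdeal R ^ n) with hψ
    have hle : maximalIdeal R ^ n ≤ maximalIdeal R := Ideal.pow_le_self hn.ne'
    haveI : IsLocalRing (R ⧸ maximalIdeal R ^ n) := Sel.quot_isLocalRing hle
    haveI : Finite (R ⧸ maximalIdeal R) := inferInstanceAs (Finite (ResidueField R))
    haveI : Finite (R ⧸ maximalIdeal R ^ n) :=
      Ideal.finite_quotient_pow (IsNoetherian.noetherian _) n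
    have hloc : IsLocalHom ψ := IsLocalHom.of_surjective _ Ideal.Quotient.mk_surjective
    have hpC : (p : R ⧸ maximalIdeal R ^ n) ∈ maximalIdeal (R ⧸ maximalIdeal R ^ n) := by
      rw [← map_natCast ψ]
      exact map_nonunit ψ _ hpR
    have h1 := conj_fin hpC (hc.map ψ hloc) (hT.map ψ) (MDet.map ψ hdet) hA hτ hφ
    have h2 := congrFun (congrFun h1 i) j
    rw [Matrix.sub_apply, Matrix.smul_apply, Matrix.sub_apply, mapT_apply, mapT_apply,
      det_mapT] at h2
    have h4 : ψ ((1 : Matrix (Fin 2) (Fin 2) R) i j) =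
        (1 : Matrix (Fin 2) (Fin 2) (R ⧸ maximalIdeal R ^ n)) i j := by
      rw [Matrix.one_apply, Matrix.one_apply]
      split_ifs
      · exact map_one _
      · exact map_zero _
    have h6 : ψ ((T (φ * τ * φ⁻¹) - 1) i j) = ψ (((T φ).det • (T τ - 1)) i j) := by
      rw [Matrix.sub_apply, Matrix.smul_apply, Matrix.sub_apply, smul_eq_mul,
        RingHom.map_sub ψ, RingHom.map_mul ψ, RingHom.map_sub ψ, h4]
      exact h2
    exact Ideal.Quotient.eq.mp h6
  rw [Ideal.iInf_pow_eq_bot_of_isLocalRing _ (Ideal.IsPrime.ne_top inferInstance)] at key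
  exact key

theorem tau_mat (hpR : (p : R) ∈ maximalIdeal R) (hT : TriAt A T)
    (hdet : MDet p T) {τ : GQ} (hτ : IsTau p A τ) : T τ = !![1, T τ 0 1; 0, 1] := by
  have hτI := (mem_Iinf.mp hτ.mem).1
  have h10 := hT.dec τ (inertia_le hτI)
  have h11 := hT.inr τ hτI
  have hd : (T τ).det = 1 := by
    refine Sel.eq_of_forall_sub_mem hpR fun n => ?_
    have := hdet n τ 1 fun μ hμ => by
      rw [pow_one]
      exact fix_of_cycP (mem_Iinf.mp hτ.mem).2 hμ
    rwa [Nat.cast_one] at this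
  rw [Matrix.det_fin_two, h10, h11, mul_one, mul_zero, sub_zero] at hd
  ext i j
  fin_cases i <;> fin_cases j
  · exact hd
  · rfl
  · exact h10
  · exact h11

/-- **Claim 1** -/
theorem beta_rel (hpR : (p : R) ∈ maximalIdeal R) (hc : MatCont T) (hT : TriAt A T)
    (hdet : MDet p T) (hA : A.LiesOverPrime p) {τ φ : GQ} (hτ : IsTau p A τ)
    (hφ : φ ∈ A.decompositionSubgroup ℚ) : (1 - T φ 1 1 ^ 2) * T τ 0 1 = 0 := by
  have h1 := conj_adic hpR hc hT hdet hA hτ hφ
  have h2 : T φ * (T τ - 1) = (T (φ * τ * φ⁻¹) - 1) * T φ := by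
    rw [mul_sub, sub_mul, ← map_mul, ← map_mul, mul_one, one_mul, inv_mul_cancel_right]
  rw [h1] at h2
  have h10 := hT.dec φ hφ
  have hτm := tau_mat hpR hT hdet hτ
  have hdφ : (T φ).det = T φ 0 0 * T φ 1 1 := by rw [Matrix.det_fin_two, h10]; ring
  have hu : IsUnit (T φ 0 0) := by
    have h3 : IsUnit (T φ) := by
      have : T φ * T φ⁻¹ = 1 := by rw [← map_mul, mul_inv_cancel, map_one]
      exact IsUnit.of_mul_eq_one _ this
    have h4 := (Matrix.isUnit_iff_isUnit_det _).mp h3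
    rw [hdφ] at h4
    exact isUnit_of_mul_isUnit_left h4
  have h3 := congrFun (congrFun h2 0) 1
  rw [hdφ, Matrix.smul_mul, Matrix.smul_apply, Matrix.mul_apply, Matrix.mul_apply,
    Fin.sum_univ_two, Fin.sum_univ_two] at h3
  simp only [Matrix.sub_apply, smul_eq_mul] at h3
  have e00 : T τ 0 0 = 1 := by rw [hτm]; rfl
  have e11 : T τ 1 1 = 1 := by rw [hτm]; rfl
  rw [e00, e11, Matrix.one_apply_eq, Matrix.one_apply_eq,
    Matrix.one_apply_ne (show (0 : Fin 2) ≠ 1 by decide)] at h3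
  refine hu.mul_right_eq_zero.mp ?_
  linear_combination h3

end Ring

/-- **Claim 2** -/
theorem frob_corner (hp2 : p ≠ 2) {R O : Type} [CommRing R] [IsLocalRing R] [CommRing O]
    [IsDomain O]
    {T : GQ →* Matrix (Fin 2) (Fin 2) R} (π : R →+* O) (hpR : (p : R) ∈ maximalIdeal R)
    (hT : TriAt A T) (hdet : MDet p T) (hA : A.LiesOverPrime p) {a : O}
    (ha : ∀ σ : GQ, A.IsFrobeniusAt σ p → a ^ 2 - π (T σ).trace * a + π (T σ).det = 0)
    {φ : GQ} (hφ : A.IsFrobeniusAt φ p) : π (T φ 1 1) = a := by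
  have hdec : ∀ σ : GQ, A.IsFrobeniusAt σ p → σ ∈ A.decompositionSubgroup ℚ := by
    intro σ hσ
    exact ((FrobDens.isFrobeniusAt_iff).mp hσ).1
  have key : ∀ σ : GQ, A.IsFrobeniusAt σ p → a = π (T σ 0 0) ∨ a = π (T σ 1 1) := by
    intro σ hσ
    have h1 := ha σ hσ
    rw [Matrix.trace_fin_two, Matrix.det_fin_two, hT.dec σ (hdec σ hσ), mul_zero, sub_zero,
      map_add, map_mul] at h1
    have h2 : (a - π (T σ 0 0)) * (a - π (T σ 1 1)) = 0 := by linear_combination h1
    rcases mul_eq_zero.mp h2 with h | h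
    · exact Or.inl (sub_eq_zero.mp h)
    · exact Or.inr (sub_eq_zero.mp h)
  obtain ⟨σ, hσ, hu⟩ := AtP.exists_inertia_unit hp2 hA
  have hu0 := isUnit_det_sub_one hpR hdet hu
  rcases key φ hφ with h | h
  swap
  · exact h.symm
  have h10 := hT.dec φ (hdec φ hφ)
  have s10 := hT.dec σ (inertia_le hσ)
  have s11 := hT.inr σ hσ
  have sd : (T σ).det = T σ 0 0 := by rw [Matrix.det_fin_two, s10, s11]; ring
  rcases key (σ * φ) (frob_inertia_mul hφ hσ) with h' | h'
  · exfalso
    rw [map_mul, Matrix.mul_apply, Fin.sum_univ_two, h10, mul_zero, add_zero, map_mul, ← sd,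
      h] at h'
    have hu1 : IsUnit (π (T φ 0 0)) := by
      have h3 : IsUnit (T φ) := by
        have : T φ * T φ⁻¹ = 1 := by rw [← map_mul, mul_inv_cancel, map_one]
        exact IsUnit.of_mul_eq_one _ this
      have h4 := (Matrix.isUnit_iff_isUnit_det _).mp h3
      rw [Matrix.det_fin_two, h10, mul_zero, sub_zero] at h4
      exact (isUnit_of_mul_isUnit_left h4).map π
    have h5 : π ((T σ).det - 1) * π (T φ 0 0) = 0 := by
      rw [map_sub, map_one]
      linear_combination -h'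
    exact ((hu0.map π).mul hu1).ne_zero h5
  · rw [map_mul, Matrix.mul_apply, Fin.sum_univ_two, s10, s11, zero_mul, zero_add, one_mul] at h'
    exact h'.symm

end Fermat.Agent.SelP
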