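import Fermat.Agent.SelP.Conj
import Fermat.Agent.AtP.OldCase
import Fermat.Agent.RT.T10a
import Fermat.Agent.RT.SelMain
import Fermat.Agent.RT.SelPSt

/-!
# Flat deformations of ordinary representations are ordinary
-/

set_option autoImplicit false
set_option maxHeartbeats 400000
set_option linter.unusedSectionVars false
set_option linter.style.haveILetI false

noncomputable section

namespace Fermat.Agent.SelP

open IsLocalRing Matrix Fermat.Agent.DefRing Fermat.Agent.GalRep Fermat.Agent.TWGal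
  Fermat.Agent.TWPatch Fermat.Agent.TW56 GaloisRep Fermat.Agent.RT Fermat.Agent.AtP

local notation "Qbar" => AlgebraicClosure ℚ

section Mat

variable {p : ℕ} [hp : Fact p.Prime]

/-- the identity satisfied by ordinary matrices on inertia -/
theorem tri_identity {K : Type} [CommRing K] {M N : Matrix (Fin 2) (Fin 2) K}
    (h1 : M 1 0 = 0) (h2 : M 1 1 = 1) (h3 : N 1 0 = 0) (h4 : N 1 1 = 1) :
    (M - M.det • 1) * (N - 1) = 0 := by
  have hd : M.det = M 0 0 := by rw [Matrix.det_fin_two, h1, h2]; ring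
  rw [hd]
  ext i j
  rw [Matrix.mul_apply, Fin.sum_univ_two, Matrix.zero_apply]
  fin_cases i <;> fin_cases j <;>
    simp [Matrix.sub_apply, Matrix.smul_apply, Matrix.one_apply, h1, h2, h3, h4]

theorem mor_identity {s : Prop} {A : Type} [CommRing A] {T : GQ →* Matrix (Fin 2) (Fin 2) A}
    (h : MOr s p T) {P : ValuationSubring Qbar} (hP : P.LiesOverPrime p) {σ τ : GQ}
    (hσ : σ ∈ P.inertiaSubgroupIn ℚ) (hτ : τ ∈ P.inertiaSubgroupIn ℚ) :
    (T σ - (T σ).det • 1) * (T τ - 1) = 0 := by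
  obtain ⟨B, B', h1, h2, h3, h4, -⟩ := h P hP
  have h5 := tri_identity (h3 σ (inertia_le hσ)) (h4 σ hσ) (h3 τ (inertia_le hτ)) (h4 τ hτ)
  rw [det_conj h2] at h5
  have e1 : B' * T σ * B - (T σ).det • 1 = B' * (T σ - (T σ).det • 1) * B := by
    rw [Matrix.mul_sub, Matrix.sub_mul, Matrix.mul_smul, Matrix.smul_mul, Matrix.mul_one, h2]
  have e2 : B' * T τ * B - 1 = B' * (T τ - 1) * B := by
    rw [Matrix.mul_sub, Matrix.sub_mul, Matrix.mul_one, h2]
  rw [e1, e2] at h5
  calc (T σ - (T σ).det • 1) * (T τ - 1) = (B * B') * (T σ - (T σ).det • 1) * (B * B') * (T τ - 1)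
        * (B * B') := by rw [h1]; simp only [Matrix.one_mul, Matrix.mul_one]
    _ = B * ((B' * (T σ - (T σ).det • 1) * B) * (B' * (T τ - 1) * B)) * B' := by
      simp only [Matrix.mul_assoc]
    _ = 0 := by rw [h5]; simp

/-- **flat and residually ordinary ⇒ ordinary** (general coefficients) -/
theorem ord_of_flat' (hp2 : p ≠ 2) {A : ValuationSubring Qbar} (hA : A.LiesOverPrime p)
    {B : Type} [CommRing B] [IsLocalRing B] [IsNoetherianRing B]
    [IsAdicComplete (maximalIdeal B) B] [Finite (ResidueField B)] (hpB : (p : B) ∈ maximalIdeal B)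
    {T : GQ →* Matrix (Fin 2) (Fin 2) B}
    (hfl : ∀ n : ℕ, n ≠ 0 → FlatLoc.IsFlatMod (FlatLoc.Zloc p) (vecRep (mapT (Ideal.Quotient.mk
      (maximalIdeal B ^ n)) T)))
    (hres : ∀ σ ∈ A.inertiaSubgroupIn ℚ, ∀ τ ∈ A.inertiaSubgroupIn ℚ, ∀ i j,
      ((T σ - (T σ).det • 1) * (T τ - 1)) i j ∈ maximalIdeal B)
    {σ₀ : GQ} (hσ₀ : σ₀ ∈ A.inertiaSubgroupIn ℚ) (hu : IsUnit ((T σ₀).det - 1)) :
    ∀ τ ∈ A.inertiaSubgroupIn ℚ, (T σ₀ - (T σ₀).det • 1) * (T τ - 1) = 0 := by
  set d := (T σ₀).det with hd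
  set t := (T σ₀).trace with ht
  have hdu : IsUnit d := by
    have h1 : IsUnit (T σ₀) := by
      have : T σ₀ * T σ₀⁻¹ = 1 := by rw [← map_mul, mul_inv_cancel, map_one]
      exact IsUnit.of_mul_eq_one _ this
    exact (Matrix.isUnit_iff_isUnit_det _).mp h1
  have htm : 1 - t + d ∈ maximalIdeal B := trace_mem hdu (hres σ₀ hσ₀ σ₀ hσ₀)
  have hu' : IsUnit (1 - d) := by rw [← neg_sub]; exact hu.neg
  obtain ⟨a, b, hab, habd, hb1⟩ := hensel_two htm hu'
  have had : d - a ∈ maximalIdeal B := by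
    have : d - a = a * (b - 1) := by rw [← habd]; ring
    rw [this]
    exact Ideal.mul_mem_left _ _ hb1
  have hba : IsUnit (b - a) := by
    by_contra hcon
    have h1 : b - a ∈ maximalIdeal B := hcon
    have h2 : 1 - d = (b - a) - (b - 1) - (d - a) := by ring
    have h3 : 1 - d ∈ maximalIdeal B := by
      rw [h2]
      exact Ideal.sub_mem _ (Ideal.sub_mem _ h1 hb1) had
    exact h3 hu'
  have key := ord_adic hp2 hA hpB hfl hσ₀ (a := a) (b := b)
    (ch_two (T σ₀) hab.symm habd.symm) hba (fun τ hτ i j => by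
      have h1 : (T σ₀ - a • 1) * (T τ - 1) = (T σ₀ - d • 1) * (T τ - 1) +
          (d - a) • (T τ - 1) := by
        simp only [sub_mul, smul_mul_assoc, one_mul, sub_smul]
        abel
      rw [h1, Matrix.add_apply, Matrix.smul_apply, smul_eq_mul]
      exact Ideal.add_mem _ (hres σ₀ hσ₀ τ hτ i j) (Ideal.mul_mem_right _ _ had))
  have hb : b = 1 := by
    have h1 := ch_two (T σ₀) hab.symm habd.symm
    have h2 : (b - 1) • (T σ₀ - a • 1) = 0 := by
      have e1 : (T σ₀ - a • 1) * (T σ₀ - b • 1) = 0 := by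
        rw [← h1]
        simp only [mul_sub, sub_mul, smul_mul_assoc, mul_smul_comm, one_mul, mul_one, smul_sub,
          smul_smul]
        rw [mul_comm a b]
        abel
      have e2 : (T σ₀ - a • 1) * (T σ₀ - 1) - (T σ₀ - a • 1) * (T σ₀ - b • 1) =
          (b - 1) • (T σ₀ - a • 1) := by
        rw [← mul_sub, sub_sub_sub_cancel_left, sub_smul, one_smul, mul_sub, mul_one,
          mul_smul_comm, mul_one]
      rw [← e2, e1, key σ₀ hσ₀, sub_self]
    by_contra hb
    have h3 : ∀ i j, (T σ₀ - a • 1) i j ∈ maximalIdeal B := by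
      intro i j
      by_contra hcon
      have h4 : IsUnit ((T σ₀ - a • 1) i j) := by
        by_contra h5
        exact hcon h5
      have h5 := congrFun (congrFun h2 i) j
      rw [Matrix.smul_apply, smul_eq_mul, Matrix.zero_apply] at h5
      exact hb (sub_eq_zero.mp (h4.mul_left_eq_zero.mp h5))
    have h4 : b - a = (T σ₀ - a • 1) 0 0 + (T σ₀ - a • 1) 1 1 := by
      have h5 : T σ₀ 0 0 + T σ₀ 1 1 = a + b := by rw [hab, ht, Matrix.trace_fin_two]
      rw [Matrix.sub_apply, Matrix.sub_apply, Matrix.smul_apply, Matrix.smul_apply,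
        Matrix.one_apply_eq, Matrix.one_apply_eq, smul_eq_mul, mul_one]
      linear_combination -h5
    exact (h4 ▸ Ideal.add_mem _ (h3 0 0) (h3 1 1) : b - a ∈ maximalIdeal B) hba
  have ha : a = d := by rw [← habd, hb, mul_one]
  rw [← ha]
  exact key

end Mat

section Rings

variable {O : Type} [CommRing O] [IsDomain O] [IsDiscreteValuationRing O]
  [IsAdicComplete (maximalIdeal O) O] [Finite (ResidueField O)] {p : ℕ} [hp : Fact p.Prime]
  {ρbar : ResidualGaloisRep (ResidueField O)} {S Smin : Finset ℕ}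

/-- the residue field of `R` is finite -/
theorem residueField_finite {R : Type} [CommRing R] [IsLocalRing R] [Algebra O R]
    (h : Function.Surjective (residue R ∘ algebraMap O R)) [IsLocalHom (algebraMap O R)] :
    Finite (ResidueField R) := by
  refine Finite.of_surjective (ResidueField.map (algebraMap O R)) fun y => ?_
  obtain ⟨x, hx⟩ := h y
  exact ⟨residue O x, by rw [ResidueField.map_residue]; exact hx⟩

/-- the flat universal deformation is ordinary as soon as the residual representation is -/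
theorem fl_ord (hp2 : p ≠ 2)
    (R₀ : DeformationRingData O ρbar (DD O .fl p S Smin))
    (R₁ : DeformationRingData O ρbar (DD O .ord p S Smin)) : DD O .ord p S Smin R₀.ρ := by
  have b : Module.Basis (Fin 2) (ResidueField O) ρbar.V :=
    Module.finBasisOfFinrankEq _ _ ρbar.finrank_eq
  obtain ⟨T₁, hT₁, hTb₁, hρ₁⟩ := exists_matRep ρbar b (ResidueField.map (algebraMap O R₁.R)) R₁.ρ
    R₁.residual_isEquiv
  obtain ⟨T₀, hT₀, hTb₀, hρ₀⟩ := exists_matRep ρbar b (ResidueField.map (algebraMap O R₀.R)) R₀.ρ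
    R₀.residual_isEquiv
  obtain ⟨b₁, hb₁⟩ := exists_basis_of_equiv hρ₁
  obtain ⟨b₀, hb₀⟩ := exists_basis_of_equiv hρ₀
  have h0 := R₀.isOfType
  have h1 := R₁.isOfType
  have hO1 : MOr False p T₁ := by
    rw [← hb₁]
    exact (ordN_iff R₁.ρ b₁).mp h1.1.2.1
  -- the identity over the residue field
  have hk : ∀ P : ValuationSubring Qbar, P.LiesOverPrime p → ∀ σ ∈ P.inertiaSubgroupIn ℚ,
      ∀ τ ∈ P.inertiaSubgroupIn ℚ,
      (resMat ρbar b σ - (resMat ρbar b σ).det • 1) * (resMat ρbar b τ - 1) = 0 := by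
    intro P hP σ hσ τ hτ
    have h2 := mor_identity hO1 hP hσ hτ
    set ι := ResidueField.map (algebraMap O R₁.R) with hι
    have hres : ∀ g, (residue R₁.R).mapMatrix (T₁ g) = ι.mapMatrix (resMat ρbar b g) := by
      intro g
      ext i j
      exact hTb₁ g i j
    have h3 := congrArg (residue R₁.R).mapMatrix h2
    rw [map_mul, map_sub, map_sub, map_one, map_smul_one, RingHom.map_det, hres, hres, map_zero,
      ← RingHom.map_det, ← map_smul_one, ← map_one (ι.mapMatrix (m := Fin 2)), ← map_sub,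
      ← map_sub, ← map_mul] at h3
    ext i j
    have h4 := congrFun (congrFun h3 i) j
    rw [Matrix.zero_apply, RingHom.mapMatrix_apply, Matrix.map_apply] at h4
    rw [Matrix.zero_apply]
    exact (map_eq_zero_iff ι ι.injective).mp h4
  have hres0 : ∀ P : ValuationSubring Qbar, P.LiesOverPrime p → ∀ σ ∈ P.inertiaSubgroupIn ℚ,
      ∀ τ ∈ P.inertiaSubgroupIn ℚ, ∀ i j,
      ((T₀ σ - (T₀ σ).det • 1) * (T₀ τ - 1)) i j ∈ maximalIdeal R₀.R := by
    intro P hP σ hσ τ hτ i j
    set ι := ResidueField.map (algebraMap O R₀.R) with hι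
    have hres : ∀ g, (residue R₀.R).mapMatrix (T₀ g) = ι.mapMatrix (resMat ρbar b g) := by
      intro g
      ext i j
      exact hTb₀ g i j
    rw [← residue_eq_zero_iff]
    have h2 : (residue R₀.R).mapMatrix ((T₀ σ - (T₀ σ).det • 1) * (T₀ τ - 1)) = 0 := by
      rw [map_mul, map_sub, map_sub, map_one, map_smul_one, RingHom.map_det, hres, hres,
        ← RingHom.map_det, ← map_smul_one, ← map_one (ι.mapMatrix (m := Fin 2)), ← map_sub,
        ← map_sub, ← map_mul, hk P hP σ hσ τ hτ, map_zero]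
    exact congrFun (congrFun h2 i) j
  have hpR : (p : R₀.R) ∈ maximalIdeal R₀.R := h0.1.1.1
  have hfin : Finite (ResidueField R₀.R) := residueField_finite R₀.residue_surjective
  have hflat := ((FlatHopf.isFlatAt_iff R₀.ρ b₀ hp.out).mp h0.1.2.1).2
  refine ⟨⟨h0.1.1, ?_, h0.1.2.2⟩, h0.2⟩
  refine isOrdinaryAt_of_identity R₀.ρ b₀ fun P hP => ?_
  obtain ⟨σ₀, hσ₀, hu⟩ := AtP.exists_inertia_unit hp2 hP
  have hdet : MDet p T₀ := by
    rw [← hb₀]
    exact ((detCyc_iff R₀.ρ b₀).mp h0.1.1).2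
  have hu0 := isUnit_det_sub_one hpR hdet hu
  rw [hb₀]
  refine ⟨σ₀, hσ₀, hu0, ord_of_flat' hp2 hP hpR (fun n hn => ?_) (hres0 P hP) hσ₀ hu0⟩
  have hne : maximalIdeal R₀.R ^ n ≠ ⊤ := fun h => by
    have h1 : maximalIdeal R₀.R ^ n ≤ maximalIdeal R₀.R := Ideal.pow_le_self hn
    rw [h, top_le_iff] at h1
    exact (maximalIdeal.isMaximal R₀.R).ne_top h1
  haveI : Finite (R₀.R ⧸ maximalIdeal R₀.R) := inferInstanceAs (Finite (ResidueField R₀.R))
  haveI : Finite (R₀.R ⧸ maximalIdeal R₀.R ^ n) :=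
    Ideal.finite_quotient_pow (IsNoetherian.noetherian _) n
  have h5 := hflat (maximalIdeal R₀.R ^ n) inferInstance hne
  rw [hb₀] at h5
  exact h5

end Rings

end Fermat.Agent.SelP
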