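import Fermat.Agent.AtP.CycIn
import Fermat.Agent.Carayol.Inertia

/-!
# A monodromy element in the inertia group at `p`
-/

set_option autoImplicit false
set_option linter.unusedSectionVars false
set_option linter.style.haveILetI false

noncomputable section

namespace Fermat.Agent.SelP

open Fermat.Agent.GalRep Fermat.Agent.Carayol Fermat.Agent.AtP

local notation "Qbar" => AlgebraicClosure ℚ
local notation "GQ" => (AlgebraicClosure ℚ ≃ₐ[ℚ] AlgebraicClosure ℚ)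

variable {p : ℕ} [hp : Fact p.Prime] {A : ValuationSubring Qbar}

theorem pow_congr {t : Qbar} {n : ℕ} (ht : t ^ p ^ n = 1) {a b : ℕ}
    (h : (a : ZMod (p ^ n)) = (b : ZMod (p ^ n))) : t ^ a = t ^ b := by
  have h1 : orderOf t ∣ p ^ n := orderOf_dvd_of_pow_eq_one ht
  have h2 : a ≡ b [MOD p ^ n] := (ZMod.natCast_eq_natCast_iff _ _ _).mp h
  have h3 : a ≡ b [MOD orderOf t] := h2.of_dvd h1
  rw [← pow_mod_orderOf t a, ← pow_mod_orderOf t b, h3]

instance neZeroPow (n : ℕ) : NeZero (p ^ n) := ⟨pow_ne_zero n hp.out.ne_zero⟩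

theorem fix_of_cycP {σ : GQ} (h : cycP p σ = 1) {t : Qbar} {n : ℕ} (ht : t ^ p ^ n = 1) :
    σ t = t := by
  rw [cycP_spec p σ ht, h, map_one]
  conv_rhs => rw [← pow_one t]
  refine pow_congr (n := n) ht ?_
  rw [ZMod.natCast_val, ZMod.cast_id', id, Nat.cast_one]

theorem val_root {t : Qbar} {n : ℕ} (hn : n ≠ 0) (ht : t ^ n = 1) : A.valuation t = 1 := by
  have ht0 : t ≠ 0 := by
    rintro rfl
    rw [zero_pow hn] at ht
    exact zero_ne_one ht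
  have h1 : A.valuation t ≤ 1 := (A.valuation_le_one_iff _).mpr (mem_of_pow_eq_one hn ht)
  have h2 : A.valuation t⁻¹ ≤ 1 := (A.valuation_le_one_iff _).mpr
    (mem_of_pow_eq_one hn (by rw [inv_pow, ht, inv_one]))
  rw [map_inv₀] at h2
  have h3 : A.valuation t ≠ 0 := (Valuation.ne_zero_iff _).mpr ht0
  exact le_antisymm h1 ((inv_le_one₀ (zero_lt_iff.mpr h3)).mp h2)

variable (p A) in
/-- Kummer elements -/
def Kum (η : Qbar) : Prop := η ≠ 0 ∧ ∃ n : ℕ, η ^ p ^ n ∈ K0 A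

variable (p A) in
/-- inertia over the cyclotomic field -/
def Iinf : Subgroup GQ := A.inertiaSubgroupIn ℚ ⊓ (cycP p).ker

theorem mem_Iinf {σ : GQ} : σ ∈ Iinf p A ↔ σ ∈ A.inertiaSubgroupIn ℚ ∧ cycP p σ = 1 := by
  rw [Iinf, Subgroup.mem_inf, MonoidHom.mem_ker]

theorem Kum.mono {η : Qbar} {n m : ℕ} (h : η ^ p ^ n ∈ K0 A) (hnm : n ≤ m) :
    η ^ p ^ m ∈ K0 A := by
  obtain ⟨k, rfl⟩ := Nat.exists_eq_add_of_le hnm
  rw [pow_add, pow_mul]
  exact pow_mem h _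

theorem Kum.mul {η η' : Qbar} (h : Kum p A η) (h' : Kum p A η') : Kum p A (η * η') := by
  obtain ⟨h0, n, hn⟩ := h
  obtain ⟨h0', n', hn'⟩ := h'
  refine ⟨mul_ne_zero h0 h0', max n n', ?_⟩
  rw [mul_pow]
  exact mul_mem (Kum.mono hn (le_max_left _ _)) (Kum.mono hn' (le_max_right _ _))

theorem Kum.inv {η : Qbar} (h : Kum p A η) : Kum p A η⁻¹ := by
  obtain ⟨h0, n, hn⟩ := h
  exact ⟨inv_ne_zero h0, n, by rw [inv_pow]; exact inv_mem hn⟩

theorem Kum.div {η η' : Qbar} (h : Kum p A η) (h' : Kum p A η') : Kum p A (η / η') := by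
  rw [div_eq_mul_inv]; exact h.mul h'.inv

theorem Kum.pow {η : Qbar} (h : Kum p A η) (k : ℕ) : Kum p A (η ^ k) := by
  obtain ⟨h0, n, hn⟩ := h
  exact ⟨pow_ne_zero _ h0, n, by rw [← pow_mul, mul_comm, pow_mul]; exact pow_mem hn _⟩

theorem Kum.zpow {η : Qbar} (h : Kum p A η) (k : ℤ) : Kum p A (η ^ k) := by
  cases k with
  | ofNat k => rw [Int.ofNat_eq_natCast, zpow_natCast]; exact h.pow k
  | negSucc k => rw [zpow_negSucc]; exact (h.pow _).inv

/-- ratios are roots of unity -/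
theorem ratio_pow {η : Qbar} (h0 : η ≠ 0) {n : ℕ} (hn : η ^ p ^ n ∈ K0 A) {σ : GQ}
    (hσ : σ ∈ A.inertiaSubgroupIn ℚ) : (σ η / η) ^ p ^ n = 1 := by
  rw [div_pow, ← map_pow, (mem_K0 A).mp hn σ hσ, div_self (pow_ne_zero _ h0)]

theorem map_eq_ratio {η : Qbar} (h0 : η ≠ 0) (σ : GQ) : σ η = (σ η / η) * η := by
  rw [div_mul_cancel₀ _ h0]

theorem exists_val_of_K0 (hA : A.LiesOverPrime p) {z : Qbar} (hz : z ∈ K0 A) (hz0 : z ≠ 0) :
    ∃ m : ℤ, A.valuation z = A.valuation (p : Qbar) ^ m := by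
  obtain ⟨m, u, -, hu, he⟩ := exists_unit_mul hp.out hA hz hz0
  exact ⟨m, by rw [he, map_mul, hu, mul_one, map_zpow₀]⟩

/-- **(B)** Kummer elements of the cyclotomic extension have integral valuation -/
theorem fixed_inf (hp2 : p ≠ 2) (hA : A.LiesOverPrime p) {z : Qbar} (hz : Kum p A z)
    (hfix : ∀ σ ∈ Iinf p A, σ z = z) : ∃ m : ℤ, A.valuation z = A.valuation (p : Qbar) ^ m := by
  obtain ⟨hz0, n, hn⟩ := hz
  obtain ⟨γ, hγ, hu⟩ := exists_inertia_unit (p := p) hp2 hA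
  set c : ZMod (p ^ n) := PadicInt.toZModPow n (cycP p γ) with hc
  have hcu : IsUnit (c - 1) := by
    have := hu.map (PadicInt.toZModPow (p := p) n)
    rwa [map_sub, map_one] at this
  obtain ⟨d, hd⟩ := hcu.exists_left_inv
  have hdc : d * c = 1 + d := by linear_combination hd
  set ξ₁ := γ z / z with hξ₁
  have hξ₁n : ξ₁ ^ p ^ n = 1 := ratio_pow hz0 hn hγ
  have hξ₁0 : ξ₁ ≠ 0 := by
    intro h
    rw [h, zero_pow (pow_ne_zero n hp.out.ne_zero)] at hξ₁n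
    exact zero_ne_one hξ₁n
  set ξ' := ξ₁ ^ d.val with hξ'
  have hξ'n : ξ' ^ p ^ n = 1 := by rw [hξ', ← pow_mul, mul_comm, pow_mul, hξ₁n, one_pow]
  have hξ'0 : ξ' ≠ 0 := pow_ne_zero _ hξ₁0
  have hγξ' : γ ξ' = ξ₁ * ξ' := by
    rw [cycP_spec p γ hξ'n, ← hc, hξ', ← pow_mul, ← pow_succ']
    refine pow_congr (n := n) hξ₁n ?_
    push_cast
    simp only [ZMod.natCast_val, ZMod.cast_id', id]
    rw [hdc, add_comm]
  set z' := z / ξ' with hz'
  have hz'0 : z' ≠ 0 := div_ne_zero hz0 hξ'0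
  have hγz' : γ z' = z' := by
    rw [hz', map_div₀, hγξ', map_eq_ratio hz0 γ, ← hξ₁]
    field_simp
  have hz'inf : ∀ σ ∈ Iinf p A, σ z' = z' := by
    intro σ hσ
    rw [hz', map_div₀, hfix σ hσ, fix_of_cycP (mem_Iinf.mp hσ).2 hξ'n]
  have hz'n : z' ^ p ^ n ∈ K0 A := by
    rw [hz', div_pow, hξ'n, div_one]; exact hn
  have hz'K : z' ∈ K0 A := by
    rw [mem_K0]
    intro σ hσ
    set ξ₂ := σ z' / z' with hξ₂
    have hξ₂n : ξ₂ ^ p ^ n = 1 := ratio_pow hz'0 hz'n hσ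
    have hκ : (γ * σ)⁻¹ * (σ * γ) ∈ Iinf p A := by
      rw [mem_Iinf]
      refine ⟨mul_mem (inv_mem (mul_mem hγ hσ)) (mul_mem hσ hγ), ?_⟩
      have h1 : cycP p ((γ * σ)⁻¹) * cycP p (γ * σ) = 1 := by
        rw [← map_mul, inv_mul_cancel, map_one]
      rw [map_mul, map_mul (cycP p) σ γ, mul_comm (cycP p σ), ← map_mul (cycP p) γ σ, h1]
    have h2 : σ z' = γ (σ z') := by
      conv_lhs => rw [← hγz']
      have h3 : σ (γ z') = (γ * σ) (((γ * σ)⁻¹ * (σ * γ)) z') := by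
        rw [← AlgEquiv.mul_apply, ← AlgEquiv.mul_apply, mul_inv_cancel_left]
      rw [h3, hz'inf _ hκ]; rfl
    have h4 : γ ξ₂ = ξ₂ := by
      rw [hξ₂, map_div₀, ← h2, hγz']
    rw [cycP_spec p γ hξ₂n, ← hc] at h4
    have hξ₂0 : ξ₂ ≠ 0 := div_ne_zero (by simpa using hz'0) hz'0
    have h5 : ξ₂ ^ (d.val + 1) = ξ₂ ^ d.val := by
      calc ξ₂ ^ (d.val + 1) = ξ₂ ^ (c.val * d.val) := by
            refine pow_congr (n := n) hξ₂n ?_
            push_cast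
            simp only [ZMod.natCast_val, ZMod.cast_id', id]
            rw [mul_comm c, hdc, add_comm]
        _ = ξ₂ ^ d.val := by rw [pow_mul, h4]
    have h6 : ξ₂ = 1 := by
      rw [pow_succ'] at h5
      exact mul_right_cancel₀ (pow_ne_zero d.val hξ₂0) (by rw [h5, one_mul])
    rw [map_eq_ratio hz'0 σ, ← hξ₂, h6, one_mul]
  obtain ⟨m, hm⟩ := exists_val_of_K0 hA hz'K hz'0
  refine ⟨m, ?_⟩
  rw [← hm, hz', map_div₀, val_root (pow_ne_zero n hp.out.ne_zero) hξ'n, div_one]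

/-- **(C)** Kummer elements fixed by the stabilizer of finitely many unit Kummer elements -/
theorem fixed_list (ws : List Qbar) (hws : ∀ w ∈ ws, Kum p A w ∧ A.valuation w = 1) :
    ∀ y : Qbar, Kum p A y → (∀ σ ∈ Iinf p A, (∀ w ∈ ws, σ w = w) → σ y = y) →
      ∃ w', (Kum p A w' ∧ A.valuation w' = 1) ∧ ∀ σ ∈ Iinf p A, σ (y / w') = y / w' := by
  induction ws with
  | nil =>
    intro y hy hfix
    refine ⟨1, ⟨⟨one_ne_zero, 0, by rw [one_pow]; exact one_mem _⟩, map_one _⟩, fun σ hσ => ?_⟩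
    rw [div_one]
    exact hfix σ hσ (by simp)
  | cons w ws ih =>
    intro y hy hfix
    have hw := hws w List.mem_cons_self
    obtain ⟨hw0, nw, hnw⟩ := hw.1
    obtain ⟨hy0, ny, hny⟩ := hy
    let G' : Subgroup GQ :=
      { carrier := {σ | σ ∈ Iinf p A ∧ ∀ w ∈ ws, σ w = w}
        mul_mem' := by
          rintro a b ⟨ha, ha'⟩ ⟨hb, hb'⟩
          exact ⟨mul_mem ha hb, fun w hw => by rw [AlgEquiv.mul_apply, hb' w hw, ha' w hw]⟩
        one_mem' := ⟨one_mem _, fun w _ => rfl⟩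
        inv_mem' := by
          rintro a ⟨ha, ha'⟩
          refine ⟨inv_mem ha, fun w hw => ?_⟩
          conv_lhs => rw [← ha' w hw]
          exact AlgEquiv.symm_apply_apply a w }
    have hGI : ∀ σ ∈ G', σ ∈ A.inertiaSubgroupIn ℚ := fun σ hσ => (mem_Iinf.mp hσ.1).1
    have hGroot : ∀ σ ∈ G', ∀ {t : Qbar} {n : ℕ}, t ^ p ^ n = 1 → σ t = t :=
      fun σ hσ _ _ ht => fix_of_cycP (mem_Iinf.mp hσ.1).2 ht
    -- characters
    have hχmul : ∀ {z : Qbar} {n : ℕ}, z ≠ 0 → z ^ p ^ n ∈ K0 A → ∀ σ ∈ G', ∀ τ ∈ G',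
        (σ * τ) z / z = (σ z / z) * (τ z / z) := by
      intro z n hz0 hzn σ hσ τ hτ
      rw [AlgEquiv.mul_apply, map_eq_ratio hz0 τ, map_mul,
        hGroot σ hσ (ratio_pow hz0 hzn (hGI τ hτ))]
      field_simp
    have hχpow : ∀ {z : Qbar} {n : ℕ}, z ≠ 0 → z ^ p ^ n ∈ K0 A → ∀ σ ∈ G', ∀ k : ℕ,
        (σ ^ k) z / z = (σ z / z) ^ k := by
      intro z n hz0 hzn σ hσ k
      induction k with
      | zero => rw [pow_zero, pow_zero]; exact div_self hz0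
      | succ k ihk => rw [pow_succ, hχmul hz0 hzn _ (pow_mem hσ k) _ hσ, ihk, pow_succ]
    have hχinv : ∀ {z : Qbar} {n : ℕ}, z ≠ 0 → z ^ p ^ n ∈ K0 A → ∀ σ ∈ G',
        σ⁻¹ z / z = (σ z / z)⁻¹ := by
      intro z n hz0 hzn σ hσ
      have h1 := hχmul hz0 hzn _ (inv_mem hσ) _ hσ
      rw [inv_mul_cancel] at h1
      have h2 : (1 : GQ) z / z = 1 := div_self hz0
      rw [h2] at h1
      exact (inv_eq_of_mul_eq_one_left h1.symm).symm
    -- the exponent of the order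
    have hex : ∀ σ : G', ∃ e : ℕ, ((σ : GQ) w / w) ^ p ^ e = 1 :=
      fun σ => ⟨nw, ratio_pow hw0 hnw (hGI _ σ.2)⟩
    classical
    let e : G' → ℕ := fun σ => Nat.find (hex σ)
    have hebd : ∀ σ, e σ ≤ nw := fun σ =>
      Nat.find_min' (hex σ) (ratio_pow hw0 hnw (hGI _ σ.2))
    obtain ⟨δ, hδ⟩ : ∃ δ : G', ∀ σ, e σ ≤ e δ := by
      have hfin : (Set.range e).Finite := (Set.finite_Iic nw).subset (by
        rintro _ ⟨σ, rfl⟩; exact hebd σ)
      obtain ⟨_, ⟨δ, rfl⟩, hmax⟩ := Set.exists_max_image (Set.range e) id hfin ⟨_, ⟨1, rfl⟩⟩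
      exact ⟨δ, fun σ => hmax _ ⟨σ, rfl⟩⟩
    set j := e δ with hj
    set ζ := (δ : GQ) w / w with hζ
    have hζj : ζ ^ p ^ j = 1 := Nat.find_spec (hex δ)
    have hprim : IsPrimitiveRoot ζ (p ^ j) := by
      rw [IsPrimitiveRoot.iff_orderOf]
      have h1 : orderOf ζ ∣ p ^ j := orderOf_dvd_of_pow_eq_one hζj
      obtain ⟨i, hi, he⟩ := (Nat.dvd_prime_pow hp.out).mp h1
      have h2 : j ≤ i := Nat.find_min' (hex δ) (by rw [← he]; exact pow_orderOf_eq_one ζ)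
      rw [he, le_antisymm hi h2]
    have hall : ∀ σ ∈ G', ∃ i : ℕ, σ w / w = ζ ^ i := by
      intro σ hσ
      have h1 : (σ w / w) ^ p ^ e ⟨σ, hσ⟩ = 1 := Nat.find_spec (hex ⟨σ, hσ⟩)
      have h2 : (σ w / w) ^ p ^ j = 1 := by
        obtain ⟨k, hk⟩ := Nat.exists_eq_add_of_le (hδ ⟨σ, hσ⟩)
        rw [hk, pow_add, pow_mul, h1, one_pow]
      obtain ⟨i, -, hi⟩ := hprim.eq_pow_of_pow_eq_one h2
      exact ⟨i, hi.symm⟩
    -- kernels
    have hker : ∀ σ ∈ G', σ w / w = 1 → σ y / y = 1 := by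
      intro σ hσ h1
      have h2 : σ w = w := by rw [map_eq_ratio hw0 σ, h1, one_mul]
      rw [hfix σ hσ.1 (by
        intro v hv
        rcases List.mem_cons.mp hv with rfl | hv
        · exact h2
        · exact hσ.2 v hv)]
      exact div_self hy0
    have hyδ : ((δ : GQ) y / y) ^ p ^ j = 1 := by
      rw [← hχpow hy0 hny _ δ.2]
      apply hker _ (pow_mem δ.2 _)
      rw [hχpow hw0 hnw _ δ.2]
      exact hζj
    obtain ⟨a, -, ha⟩ := hprim.eq_pow_of_pow_eq_one hyδ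
    have hya : ∀ σ ∈ G', σ y / y = (σ w / w) ^ a := by
      intro σ hσ
      obtain ⟨i, hi⟩ := hall σ hσ
      have h1 : (σ * ((δ : GQ) ^ i)⁻¹) w / w = 1 := by
        rw [hχmul hw0 hnw _ hσ _ (inv_mem (pow_mem δ.2 i)), hχinv hw0 hnw _ (pow_mem δ.2 i),
          hχpow hw0 hnw _ δ.2, hi, mul_inv_cancel₀]
        exact pow_ne_zero _ (hprim.ne_zero (pow_ne_zero _ hp.out.ne_zero))
      have h2 := hker _ (mul_mem hσ (inv_mem (pow_mem δ.2 i))) h1
      rw [hχmul hy0 hny _ hσ _ (inv_mem (pow_mem δ.2 i)), hχinv hy0 hny _ (pow_mem δ.2 i),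
        hχpow hy0 hny _ δ.2, ← ha] at h2
      have h3 : ((ζ ^ a) ^ i) ≠ 0 :=
        pow_ne_zero _ (pow_ne_zero _ (hprim.ne_zero (pow_ne_zero _ hp.out.ne_zero)))
      rw [mul_inv_eq_one₀ h3] at h2
      rw [h2, hi, ← pow_mul, ← pow_mul, mul_comm]
    obtain ⟨w', hw', hfix'⟩ := ih (fun v hv => hws v (List.mem_cons_of_mem _ hv)) (y / w ^ a)
      (Kum.div (p := p) (A := A) ⟨hy0, ny, hny⟩ (hw.1.pow a)) (by
        intro σ hσ hσws
        have h1 := hya σ ⟨hσ, hσws⟩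
        have h2 : σ w ≠ 0 := by simpa using hw0
        have h3 : σ y = (σ w / w) ^ a * y := by rw [← h1, div_mul_cancel₀ _ hy0]
        rw [map_div₀, map_pow, h3, div_pow]
        field_simp)
    refine ⟨w ^ a * w', ⟨(hw.1.pow a).mul hw'.1, ?_⟩, fun σ hσ => ?_⟩
    · rw [map_mul, map_pow, hw.2, hw'.2, one_pow, one_mul]
    · have h1 : y / (w ^ a * w') = y / w ^ a / w' := by rw [div_div]
      rw [h1]
      exact hfix' σ hσ

end Fermat.Agent.SelP
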