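import Fermat.Agent.SelP.Tau

/-!
# A monodromy element in the inertia group at `p`, II
-/

set_option autoImplicit false
set_option linter.unusedSectionVars false
set_option linter.style.haveILetI false

noncomputable section

namespace Fermat.Agent.SelP

open Fermat.Agent.GalRep Fermat.Agent.Carayol Fermat.Agent.AtP
open scoped Pointwise

local notation "Qbar" => AlgebraicClosure ℚ
local notation "GQ" => (AlgebraicClosure ℚ ≃ₐ[ℚ] AlgebraicClosure ℚ)

variable {p : ℕ} [hp : Fact p.Prime] {A : ValuationSubring Qbar}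

theorem natCast_mem_K0 (m : ℕ) : (m : Qbar) ∈ K0 A := natCast_mem (K0 A) m

theorem p_ne_zero : (p : Qbar) ≠ 0 := by exact_mod_cast hp.out.ne_zero

theorem val_p_lt (hA : A.LiesOverPrime p) : A.valuation (p : Qbar) < 1 := hA

theorem val_p_ne : A.valuation (p : Qbar) ≠ 0 := (Valuation.ne_zero_iff _).mpr p_ne_zero

/-- integral powers of `v(p)` are distinct -/
theorem val_p_zpow (hA : A.LiesOverPrime p) {m n : ℤ}
    (h : A.valuation (p : Qbar) ^ m = A.valuation (p : Qbar) ^ n) : m = n := by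
  have h1 : StrictAnti fun k : ℤ => A.valuation (p : Qbar) ^ k :=
    zpow_right_strictAnti₀ (zero_lt_iff.mpr val_p_ne) (val_p_lt hA)
  exact h1.injective h

/-- the existence of the automorphism at a finite level -/
theorem exists_move (hp2 : p ≠ 2) (hA : A.LiesOverPrime p) (ws : List Qbar)
    (hws : ∀ w ∈ ws, Kum p A w ∧ A.valuation w = 1) {π : Qbar} (hπ : π ^ p = p) {ζ : Qbar}
    (hζ : IsPrimitiveRoot ζ p) : ∃ σ ∈ Iinf p A, (∀ w ∈ ws, σ w = w) ∧ σ π = ζ * π := by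
  have hπ0 : π ≠ 0 := by
    rintro rfl
    rw [zero_pow hp.out.ne_zero] at hπ
    exact p_ne_zero hπ.symm
  have hπK : Kum p A π := ⟨hπ0, 1, by rw [pow_one, hπ]; exact natCast_mem_K0 p⟩
  obtain ⟨σ, hσ, hσw, hσπ⟩ : ∃ σ ∈ Iinf p A, (∀ w ∈ ws, σ w = w) ∧ σ π ≠ π := by
    by_contra hcon
    push Not at hcon
    obtain ⟨w', hw', hfix⟩ := fixed_list ws hws π hπK hcon
    obtain ⟨m, hm⟩ := fixed_inf hp2 hA (hπK.div hw'.1) hfix
    rw [map_div₀, hw'.2, div_one] at hm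
    have h1 : A.valuation (p : Qbar) ^ (1 : ℤ) = A.valuation (p : Qbar) ^ (m * p) := by
      rw [zpow_one, zpow_mul, ← hm, zpow_natCast, ← map_pow, hπ]
    have h2 := val_p_zpow hA h1
    have h3 : (p : ℤ) ∣ 1 := ⟨m, by rw [mul_comm]; exact h2⟩
    have h4 := Int.le_of_dvd one_pos h3
    have h5 := hp.out.two_le
    omega
  -- adjust the root of unity
  set ξ := σ π / π with hξ
  have hξp : ξ ^ p = 1 := by
    rw [hξ, div_pow, ← map_pow, hπ, map_natCast, div_self p_ne_zero]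
  have hξ1 : ξ ≠ 1 := by
    intro h
    apply hσπ
    rw [map_eq_ratio hπ0 σ, ← hξ, h, one_mul]
  have hξprim : IsPrimitiveRoot ξ p := by
    rw [IsPrimitiveRoot.iff_orderOf]
    exact orderOf_eq_prime hξp hξ1
  obtain ⟨k, -, hk⟩ := hξprim.eq_pow_of_pow_eq_one hζ.pow_eq_one
  refine ⟨σ ^ k, pow_mem hσ k, fun w hw => ?_, ?_⟩
  · clear hk
    induction k with
    | zero => rfl
    | succ k ih => rw [pow_succ, AlgEquiv.mul_apply, hσw w hw, ih]
  · have hfixξ : σ ξ = ξ := fix_of_cycP (mem_Iinf.mp hσ).2 (n := 1) (by rw [pow_one]; exact hξp)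
    have h1 : ∀ j : ℕ, (σ ^ j) π = ξ ^ j * π := by
      intro j
      induction j with
      | zero => rw [pow_zero, pow_zero, one_mul]; rfl
      | succ j ih =>
        rw [pow_succ', AlgEquiv.mul_apply, ih, map_mul, map_pow, hfixξ, map_eq_ratio hπ0 σ, ← hξ]
        ring
    rw [h1, hk]

theorem isClosed_Iinf : IsClosed (Iinf p A : Set GQ) := by
  have h : (Iinf p A : Set GQ) = (A.inertiaSubgroupIn ℚ : Set GQ) ∩
      ⋂ t : {t : Qbar // ∃ n : ℕ, t ^ p ^ n = 1}, {σ : GQ | σ t.1 = t.1} := by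
    ext σ
    rw [SetLike.mem_coe, mem_Iinf]
    constructor
    · rintro ⟨h1, h2⟩
      refine ⟨h1, ?_⟩
      rw [Set.mem_iInter]
      rintro ⟨t, n, ht⟩
      exact fix_of_cycP h2 ht
    · rintro ⟨h1, h2⟩
      rw [Set.mem_iInter] at h2
      refine ⟨h1, ?_⟩
      refine PadicInt.ext_of_toZModPow.mp fun n => ?_
      obtain ⟨ζ, hζ⟩ := HasEnoughRootsOfUnity.exists_primitiveRoot Qbar (p ^ n)
      rw [map_one, toZModPow_cycP_eq p σ hζ (a := 1)
        (by rw [pow_one]; exact h2 ⟨ζ, n, hζ.pow_eq_one⟩), Nat.cast_one]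
  rw [h]
  exact (isClosed_inertia A).inter (isClosed_iInter fun t => isClosed_aux t.1 (fun y => y = t.1))

/-- **the monodromy element** -/
theorem exists_tau (hp2 : p ≠ 2) (hA : A.LiesOverPrime p) {π : Qbar} (hπ : π ^ p = p) {ζ : Qbar}
    (hζ : IsPrimitiveRoot ζ p) : ∃ τ ∈ Iinf p A,
      (∀ w, Kum p A w → A.valuation w = 1 → τ w = w) ∧ τ π = ζ * π := by
  classical
  let S : Set GQ := (Iinf p A : Set GQ) ∩ {σ : GQ | σ π = ζ * π}
  have hSc : IsClosed S := isClosed_Iinf.inter (isClosed_aux π (fun y => y = ζ * π))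
  have hS : IsCompact S := hSc.isCompact
  have h1 := hS.inter_iInter_nonempty
    (fun w : {w : Qbar // Kum p A w ∧ A.valuation w = 1} => {σ : GQ | σ w.1 = w.1})
    (fun w => isClosed_aux w.1 (fun y => y = w.1)) (by
      intro u
      obtain ⟨σ, hσ, hσw, hσπ⟩ := exists_move hp2 hA (u.toList.map Subtype.val) (by
        intro w hw
        obtain ⟨v, -, rfl⟩ := List.mem_map.mp hw
        exact v.2) hπ hζ
      refine ⟨σ, ⟨hσ, hσπ⟩, ?_⟩
      rw [Set.mem_iInter₂]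
      intro w hw
      exact hσw _ (List.mem_map.mpr ⟨w, Finset.mem_toList.mpr hw, rfl⟩))
  obtain ⟨τ, ⟨hτ, hτπ⟩, h2⟩ := h1
  rw [Set.mem_iInter] at h2
  exact ⟨τ, hτ, fun w hw hw1 => h2 ⟨w, hw, hw1⟩, hτπ⟩

/-- monodromy elements -/
structure IsTau (p : ℕ) [Fact p.Prime] (A : ValuationSubring Qbar) (τ : GQ) : Prop where
  mem : τ ∈ Iinf p A
  unit : ∀ w, Kum p A w → A.valuation w = 1 → τ w = w
  move : ∀ π : Qbar, π ^ p = p → τ π ≠ π

theorem exists_isTau (hp2 : p ≠ 2) (hA : A.LiesOverPrime p) : ∃ τ, IsTau p A τ := by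
  obtain ⟨π, hπ⟩ := IsAlgClosed.exists_pow_nat_eq (p : Qbar) hp.out.pos
  obtain ⟨ζ, hζ⟩ := HasEnoughRootsOfUnity.exists_primitiveRoot Qbar p
  obtain ⟨τ, hτ, hτw, hτπ⟩ := exists_tau hp2 hA hπ hζ
  have hπ0 : π ≠ 0 := by
    rintro rfl
    rw [zero_pow hp.out.ne_zero] at hπ
    exact p_ne_zero hπ.symm
  refine ⟨τ, hτ, hτw, fun π' hπ' h => ?_⟩
  -- `π' / π` is a root of unity
  have h1 : (π' / π) ^ p = 1 := by rw [div_pow, hπ, hπ', div_self p_ne_zero]
  have h2 : τ (π' / π) = π' / π :=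
    fix_of_cycP (mem_Iinf.mp hτ).2 (n := 1) (by rw [pow_one]; exact h1)
  rw [map_div₀, h, hτπ] at h2
  have hπ'0 : π' ≠ 0 := by
    rintro rfl
    rw [zero_pow hp.out.ne_zero] at hπ'
    exact p_ne_zero hπ'.symm
  have hζ0 : ζ ≠ 0 := hζ.ne_zero hp.out.ne_zero
  rw [div_eq_div_iff (mul_ne_zero hζ0 hπ0) hπ0] at h2
  have h3 : ζ = 1 := by
    have h4 : π' * π * ζ = π' * π * 1 := by rw [mul_one]; linear_combination -h2
    exact mul_left_cancel₀ (mul_ne_zero hπ'0 hπ0) h4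
  exact hζ.ne_one hp.out.one_lt h3

theorem mem_of_dec {φ : GQ} (hφ : φ ∈ A.decompositionSubgroup ℚ) {x : Qbar} (hx : x ∈ A) :
    φ x ∈ A := by
  have h1 : φ • A = A := hφ
  rw [← h1]
  exact ValuationSubring.smul_mem_pointwise_smul _ _ _ hx

/-- the decomposition group preserves the valuation -/
theorem val_dec (hA : A.LiesOverPrime p) {φ : GQ} (hφ : φ ∈ A.decompositionSubgroup ℚ)
    (x : Qbar) : A.valuation (φ x) = A.valuation x := by
  by_cases hx : x = 0
  · rw [hx, map_zero]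
  obtain ⟨e, he, f, h⟩ := ECRed.val_alg A hp.out hA hx
  have hle : ∀ y : Qbar, A.valuation y = 1 → A.valuation (φ y) = 1 := by
    intro y hy
    have hy0 : y ≠ 0 := by rintro rfl; simp at hy
    apply le_antisymm
    · exact (A.valuation_le_one_iff _).mpr (mem_of_dec hφ ((A.valuation_le_one_iff _).mp hy.le))
    · have h1 : A.valuation (φ y⁻¹) ≤ 1 :=
        (A.valuation_le_one_iff _).mpr (mem_of_dec hφ ((A.valuation_le_one_iff _).mp (by
          rw [map_inv₀, hy, inv_one])))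
      rw [map_inv₀, map_inv₀] at h1
      have h2 : A.valuation (φ y) ≠ 0 := by
        rw [Valuation.ne_zero_iff]; simpa using hy0
      exact (inv_le_one₀ (zero_lt_iff.mpr h2)).mp h1
  have h1 : A.valuation (x ^ e * ((p : Qbar) ^ f)⁻¹) = 1 := by
    rw [map_mul, map_pow, h, map_inv₀, map_zpow₀, mul_inv_cancel₀ (zpow_ne_zero _ val_p_ne)]
  have h2 := hle _ h1
  rw [map_mul, map_pow, map_inv₀, map_zpow₀, map_natCast, map_mul, map_pow, map_inv₀, map_zpow₀,
    mul_inv_eq_one₀ (zpow_ne_zero _ val_p_ne), ← h] at h2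
  have hφx : φ x ≠ 0 := by simpa using hx
  have h3 : (A.valuation (φ x) / A.valuation x) ^ e = 1 := by
    rw [div_pow, h2, div_self (pow_ne_zero _ ((Valuation.ne_zero_iff _).mpr hx))]
  have h4 := (pow_eq_one_iff.mp h3).resolve_right he.ne'
  rwa [div_eq_one_iff_eq ((Valuation.ne_zero_iff _).mpr hx)] at h4

theorem conj_mem_inertia {d σ : GQ} (hd : d ∈ A.decompositionSubgroup ℚ)
    (hσ : σ ∈ A.inertiaSubgroupIn ℚ) : d * σ * d⁻¹ ∈ A.inertiaSubgroupIn ℚ := by
  have h := Mink.conj_mem_inertia A d σ hσ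
  have h1 : d • A = A := hd
  rwa [h1] at h

theorem K0_dec {φ : GQ} (hφ : φ ∈ A.decompositionSubgroup ℚ) {x : Qbar} (hx : x ∈ K0 A) :
    φ x ∈ K0 A := by
  rw [mem_K0]
  intro σ hσ
  have h1 : φ⁻¹ * σ * φ ∈ A.inertiaSubgroupIn ℚ := by
    have := conj_mem_inertia (inv_mem hφ) hσ
    rwa [inv_inv] at this
  have h2 := (mem_K0 A).mp hx _ h1
  have h3 : φ ((φ⁻¹ * σ * φ) x) = σ (φ x) := by
    rw [← AlgEquiv.mul_apply, ← AlgEquiv.mul_apply]
    congr 1
    group
  rw [← h3, h2]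

namespace IsTau

variable {τ : GQ} (hτ : IsTau p A τ)

include hτ in
/-- the action on Kummer elements depends only on the valuation -/
theorem ratio_eq {η η' : Qbar} (h : Kum p A η) (h' : Kum p A η')
    (hv : A.valuation η = A.valuation η') : τ η / η = τ η' / η' := by
  have h1 := hτ.unit (η / η') (h.div h') (by
    rw [map_div₀, hv, div_self ((Valuation.ne_zero_iff _).mpr h'.1)])
  have h0 := h.1
  have h0' := h'.1
  have h2 : τ η' ≠ 0 := by simpa using h0'
  rw [map_div₀, div_eq_div_iff h2 h0'] at h1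
  rw [div_eq_div_iff h0 h0']
  linear_combination h1

include hτ in
/-- **Kummer elements fixed by `τ` have integral valuation** -/
theorem val_of_fixed (hA : A.LiesOverPrime p) {η : Qbar} (h : Kum p A η) (hfix : τ η = η) :
    ∃ m : ℤ, A.valuation η = A.valuation (p : Qbar) ^ m := by
  obtain ⟨h0, n, hn⟩ := h
  obtain ⟨a, u, huK, hu, he⟩ := exists_unit_mul hp.out hA hn (pow_ne_zero _ h0)
  rcases Nat.eq_zero_or_pos n with rfl | hn0
  · refine ⟨a, ?_⟩
    rw [pow_zero, pow_one] at he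
    rw [he, map_mul, hu, mul_one, map_zpow₀]
  -- a compatible root of `p`
  obtain ⟨π, hπ⟩ := IsAlgClosed.exists_pow_nat_eq (p : Qbar) (pow_pos hp.out.pos n)
  have hπ0 : π ≠ 0 := by
    rintro rfl
    rw [zero_pow (pow_ne_zero _ hp.out.ne_zero)] at hπ
    exact p_ne_zero hπ.symm
  have hπK : Kum p A π := ⟨hπ0, n, by rw [hπ]; exact natCast_mem_K0 p⟩
  have hrt : (τ π / π) ^ p ^ n = 1 :=
    ratio_pow hπ0 (by rw [hπ]; exact natCast_mem_K0 p) (mem_Iinf.mp hτ.mem).1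
  have hord : orderOf (τ π / π) = p ^ n := by
    obtain ⟨k, rfl⟩ := Nat.exists_eq_succ_of_ne_zero hn0.ne'
    refine orderOf_eq_prime_pow (fun hcon => ?_) hrt
    refine hτ.move (π ^ p ^ k) (by rw [← pow_mul, ← pow_succ, hπ]) ?_
    rw [map_pow, map_eq_ratio hπ0 τ, mul_pow, hcon, one_mul]
  have hw : Kum p A (η / π ^ a) := (show Kum p A η from ⟨h0, n, hn⟩).div (hπK.zpow a)
  have hvw : A.valuation (η / π ^ a) = 1 := by
    have h1 : A.valuation (η / π ^ a) ^ p ^ n = 1 := by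
      rw [← map_pow, div_pow, he, ← zpow_natCast (π ^ a), ← zpow_mul, mul_comm a, zpow_mul,
        zpow_natCast, hπ, mul_comm, mul_div_assoc, div_self (zpow_ne_zero _ p_ne_zero), mul_one,
        hu]
    exact (pow_eq_one_iff.mp h1).resolve_right (pow_ne_zero _ hp.out.ne_zero)
  have h1 := hτ.unit _ hw hvw
  rw [map_div₀, hfix, map_zpow₀, div_eq_div_iff (zpow_ne_zero _ (by simpa using hπ0))
    (zpow_ne_zero _ hπ0)] at h1
  have h2 : π ^ a = (τ π) ^ a := mul_left_cancel₀ h0 h1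
  have h3 : (τ π / π) ^ a = 1 := by
    rw [div_zpow, ← h2, div_self (zpow_ne_zero _ hπ0)]
  have h4 : ((orderOf (τ π / π) : ℕ) : ℤ) ∣ a := by
    have hu0 : τ π / π ≠ 0 := div_ne_zero (by simpa using hπ0) hπ0
    have h5 : (Units.mk0 _ hu0) ^ a = 1 := by
      apply Units.ext
      rw [Units.val_zpow_eq_zpow_val, Units.val_mk0, Units.val_one]
      exact h3
    have h6 := orderOf_dvd_iff_zpow_eq_one.mpr h5
    rwa [← orderOf_units, Units.val_mk0] at h6
  rw [hord] at h4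
  obtain ⟨m, hm⟩ := h4
  refine ⟨m, ?_⟩
  have h5 : A.valuation (η / (p : Qbar) ^ m) ^ p ^ n = 1 := by
    rw [← map_pow, div_pow, he, hm, ← zpow_natCast ((p : Qbar) ^ m), ← zpow_mul, mul_comm m,
      mul_comm, mul_div_assoc, div_self (zpow_ne_zero _ p_ne_zero), mul_one, hu]
  have h6 := (pow_eq_one_iff.mp h5).resolve_right (pow_ne_zero _ hp.out.ne_zero)
  rw [map_div₀, div_eq_one_iff_eq (by rw [map_zpow₀]; exact zpow_ne_zero _ val_p_ne),
    map_zpow₀] at h6
  exact h6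

include hτ in
/-- **conjugation by the decomposition group** -/
theorem conj_ratio (hA : A.LiesOverPrime p) {φ : GQ} (hφ : φ ∈ A.decompositionSubgroup ℚ) {η : Qbar} (h : Kum p A η) :
    (φ * τ * φ⁻¹) η / η = φ (τ η / η) := by
  have hval : ∀ x : Qbar, A.valuation (φ⁻¹ x) = A.valuation x := val_dec hA (inv_mem hφ)
  have hK : ∀ x ∈ K0 A, φ⁻¹ x ∈ K0 A := fun x hx => K0_dec (inv_mem hφ) hx
  obtain ⟨h0, n, hn⟩ := h
  have h' : Kum p A (φ⁻¹ η) := ⟨by simpa using h0, n, by rw [← map_pow]; exact hK _ hn⟩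
  have h1 := hτ.ratio_eq h' ⟨h0, n, hn⟩ (hval η)
  have h2 : τ (φ⁻¹ η) = (τ η / η) * φ⁻¹ η := by
    rw [← h1, div_mul_cancel₀ _ h'.1]
  have h3 : φ (φ⁻¹ η) = η := by
    rw [← AlgEquiv.mul_apply, mul_inv_cancel]; rfl
  rw [AlgEquiv.mul_apply, AlgEquiv.mul_apply, h2, map_mul, h3, mul_div_assoc, div_self h0, mul_one]

end IsTau

end Fermat.Agent.SelP
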